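import Fermat.Agent.Donsker.Maximal
import Mathlib.MeasureTheory.Measure.FiniteMeasurePi
import Mathlib.Probability.CentralLimitTheorem
import Mathlib.Probability.Moments.Variance

/-!
# Block increments

Increments over consecutive blocks are independent and those over blocks of length about `c n`,
divided by `√n`, tend to the normal law of variance `c`.
-/

set_option autoImplicit false

noncomputable section

namespace FA.Donsker

open MeasureTheory ProbabilityTheory Finset Filter Topology
open scoped ENNReal NNReal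

variable {Ω : Type*} {mΩ : MeasurableSpace Ω} {P : Measure Ω} {X : ℕ → Ω → ℝ}

/-- A centred walk of variance `1`. -/
structure WalkStep (X : ℕ → Ω → ℝ) (P : Measure Ω) : Prop where
  meas : ∀ i, Measurable (X i)
  indep : iIndepFun X P
  ident : ∀ i, IdentDistrib (X i) (X 0) P P
  mean : ∫ ω, X 0 ω ∂P = 0
  second : ∫ ω, X 0 ω ^ 2 ∂P = 1

/-- The increments of the partial sums over the blocks cut at `a`. -/
def blockInc (X : ℕ → Ω → ℝ) (a : ℕ → ℕ) (j : ℕ) (ω : Ω) : ℝ :=
  psum X (a (j + 1)) ω - psum X (a j) ω

theorem measurable_blockInc (hm : ∀ i, Measurable (X i)) (a : ℕ → ℕ) (j : ℕ) :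
    Measurable (blockInc X a j) :=
  (measurable_psum hm _).sub (measurable_psum hm _)

theorem measure_blocks (hI : iIndepFun X P) (hm : ∀ i, Measurable (X i)) {a : ℕ → ℕ}
    (ha : Monotone a) (m : ℕ) (B : ℕ → Set ℝ) (hB : ∀ j, MeasurableSet (B j)) :
    P {ω | ∀ j < m, blockInc X a j ω ∈ B j} = ∏ j ∈ range m, P (blockInc X a j ⁻¹' B j) := by
  induction m with
  | zero =>
    have := hI.isProbabilityMeasure
    rw [prod_range_zero, ← measure_univ (μ := P)]
    exact congrArg P (Set.eq_univ_of_forall fun ω j hj => absurd hj (Nat.not_lt_zero j))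
  | succ m ih =>
    set g : ℕ → Fin (a m + 1) := fun i => ⟨min (a i) (a m), by omega⟩
    set A : Set (Fin (a m + 1) → ℝ) := {f | ∀ j < m, f (g (j + 1)) - f (g j) ∈ B j}
    have hA : MeasurableSet A := by
      have e : A = ⋂ j ∈ range m, (fun f => f (g (j + 1)) - f (g j)) ⁻¹' B j := by
        ext f
        simp [A]
      rw [e]
      exact Finset.measurableSet_biInter _ fun j _ =>
        ((measurable_pi_apply (g (j + 1))).sub (measurable_pi_apply (g j))) (hB j)
    have e1 : {ω | ∀ j < m, blockInc X a j ω ∈ B j} =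
        (fun ω (i : Fin (a m + 1)) => psum X i ω) ⁻¹' A := by
      ext ω
      refine forall₂_congr fun j hj => ?_
      simp only [g, min_eq_left (ha hj.le), min_eq_left (ha (Nat.succ_le_of_lt hj)), blockInc]
    have e2 : {ω | ∀ j < m + 1, blockInc X a j ω ∈ B j} =
        {ω | ∀ j < m, blockInc X a j ω ∈ B j} ∩ blockInc X a m ⁻¹' B m := by
      ext ω
      exact Nat.forall_lt_succ_right
    rw [prod_range_succ, ← ih, e2, e1]
    exact indepFun_iff_measure_inter_preimage_eq_mul.1
      (indepFun_past_future hI hm (ha m.le_succ)) A (B m) hA (hB m)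

/-- The joint law of the block increments is the product of their laws. -/
theorem map_blocks (hI : iIndepFun X P) (hm : ∀ i, Measurable (X i)) {a : ℕ → ℕ}
    (ha : Monotone a) (m : ℕ) :
    P.map (fun ω (j : Fin m) => blockInc X a j ω) =
      Measure.pi fun j : Fin m => P.map (blockInc X a j) := by
  classical
  have := hI.isProbabilityMeasure
  have : ∀ j : Fin m, IsProbabilityMeasure (P.map (blockInc X a j)) := fun j =>
    Measure.isProbabilityMeasure_map (measurable_blockInc hm a j).aemeasurable
  refine (Measure.pi_eq fun s hs => ?_).symm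
  rw [Measure.map_apply (measurable_pi_lambda _ fun j : Fin m => measurable_blockInc hm a j)
    (MeasurableSet.pi Set.countable_univ fun j _ => hs j)]
  set B : ℕ → Set ℝ := fun j => if h : j < m then s ⟨j, h⟩ else Set.univ
  have hB : ∀ j, MeasurableSet (B j) := fun j => by
    by_cases h : j < m
    · simpa [B, h] using hs ⟨j, h⟩
    · simp [B, h]
  have e : (fun ω (j : Fin m) => blockInc X a j ω) ⁻¹' Set.univ.pi s =
      {ω | ∀ j < m, blockInc X a j ω ∈ B j} := by
    ext ω
    simp only [Set.mem_preimage, Set.mem_univ_pi, Set.mem_ofPred_eq]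
    exact ⟨fun h j hj => by simpa [B, hj] using h ⟨j, hj⟩,
      fun h j => by simpa [B, j.isLt] using h j j.isLt⟩
  rw [e, measure_blocks hI hm ha m B hB, ← Fin.prod_univ_eq_prod_range]
  exact prod_congr rfl fun j _ => by
    rw [Measure.map_apply (measurable_blockInc hm a j) (hs j)]
    simp [B, j.isLt]

/-- An increment has the law of the partial sum of the same length. -/
theorem WalkStep.map_increment (h : WalkStep X P) {k L : ℕ} (hkL : k ≤ L) :
    P.map (fun ω => psum X L ω - psum X k ω) = P.map (psum X (L - k)) := by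
  have := h.indep.isProbabilityMeasure
  refine Measure.ext_of_charFun (funext fun t => ?_)
  have e : (fun ω => psum X L ω - psum X k ω) = fun ω => ∑ i ∈ Ico k L, X i ω :=
    funext fun ω => psum_sub hkL ω
  rw [e, show psum X (L - k) = fun ω => ∑ i ∈ range (L - k), X i ω from rfl,
    (h.indep.restrict _).charFun_map_fun_finsetSum_eq_prod fun i _ => (h.meas i).aemeasurable,
    (h.indep.restrict _).charFun_map_fun_finsetSum_eq_prod fun i _ => (h.meas i).aemeasurable]
  simp [fun i => (h.ident i).map_eq]

theorem WalkStep.memLp (h : WalkStep X P) (i : ℕ) : MemLp (X i) 2 P := by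
  refine (h.ident i).memLp_iff.2
    ((memLp_two_iff_integrable_sq (h.meas 0).aestronglyMeasurable).2 ?_)
  by_contra hne
  have := h.second
  rw [integral_undef hne] at this
  exact zero_ne_one this

/-- Chebyshev's bound for an increment. -/
theorem WalkStep.half_le_increment (h : WalkStep X P) {k L : ℕ} (hkL : k ≤ L) {c : ℝ} (hc : 0 < c)
    (hL : 2 * ((L : ℝ) - k) ≤ c ^ 2) : 2⁻¹ ≤ P {ω | |psum X L ω - psum X k ω| ≤ c} := by
  have := h.indep.isProbabilityMeasure
  set D : Ω → ℝ := fun ω => ∑ i ∈ Ico k L, X i ω
  have hDL : MemLp D 2 P := memLp_finsetSum _ fun i _ => h.memLp i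
  have hmean : ∫ ω, D ω ∂P = 0 := by
    rw [integral_finsetSum _ fun i _ => (h.memLp i).integrable one_le_two]
    exact sum_eq_zero fun i _ => (h.ident i).integral_eq.trans h.mean
  have hvar : variance D P = (L : ℝ) - k := by
    rw [show D = ∑ i ∈ Ico k L, X i from funext fun ω => by simp [D],
      IndepFun.variance_sum (fun i _ => h.memLp i) fun i _ j _ hij => h.indep.indepFun hij]
    rw [sum_congr rfl fun i _ => show variance (X i) P = 1 by
      rw [variance_of_integral_eq_zero (h.meas i).aemeasurable
        ((h.ident i).integral_eq.trans h.mean)]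
      exact ((h.ident i).comp (measurable_id.pow_const 2)).integral_eq.trans h.second]
    simp [Nat.cast_sub hkL]
  have hch := meas_ge_le_variance_div_sq hDL hc
  simp only [hmean, sub_zero, hvar] at hch
  have hbad : P {ω | c ≤ |D ω|} ≤ 2⁻¹ := hch.trans (by
    rw [show (2⁻¹ : ℝ≥0∞) = ENNReal.ofReal 2⁻¹ by simp [ENNReal.ofReal_inv_of_pos]]
    refine ENNReal.ofReal_le_ofReal ?_
    rw [div_le_iff₀ (by positivity)]
    linarith)
  have hcover : (1 : ℝ≥0∞) ≤ P {ω | |psum X L ω - psum X k ω| ≤ c} + P {ω | c ≤ |D ω|} := by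
    rw [← measure_univ (μ := P)]
    refine (measure_mono fun ω _ => ?_).trans (measure_union_le _ _)
    rcases le_total |D ω| c with hD | hD
    · exact Or.inl (show |psum X L ω - psum X k ω| ≤ c by rwa [psum_sub hkL])
    · exact Or.inr hD
  by_contra hne
  exact not_lt.2 hcover ((ENNReal.add_lt_add_of_lt_of_le
    (ne_top_of_le_ne_top (by simp) hbad) (not_le.1 hne) hbad).trans_eq ENNReal.inv_two_add_inv_two)

/-- **The central limit theorem on a block.** -/
theorem WalkStep.tendsto_block [IsProbabilityMeasure P] (h : WalkStep X P) {a b : ℕ → ℕ}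
    (hab : ∀ n, a n ≤ b n) {c : ℝ≥0} (hc : c ≠ 0)
    (hlim : Tendsto (fun n => ((b n - a n : ℕ) : ℝ) / n) atTop (𝓝 c)) :
    TendstoInDistribution (fun n ω => (psum X (b n) ω - psum X (a n) ω) / √n) atTop id
      (fun _ => P) (gaussianReal 0 c) := by
  set len : ℕ → ℕ := fun n => b n - a n
  have hc0 : (0 : ℝ) < c := NNReal.coe_pos.2 (pos_iff_ne_zero.2 hc)
  have hlen : Tendsto len atTop atTop := by
    refine (tendsto_natCast_atTop_iff (R := ℝ)).1 ?_
    refine Tendsto.congr' ?_ (hlim.pos_mul_atTop hc0 tendsto_natCast_atTop_atTop)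
    filter_upwards [eventually_ge_atTop 1] with n hn
    exact div_mul_cancel₀ _ (Nat.cast_ne_zero.2 (by omega))
  have hclt := tendstoInDistribution_inv_sqrt_mul_sum (P' := gaussianReal 0 1) (Y := id) HasLaw.id
    h.mean h.second h.indep h.ident
  have hclt' : TendstoInDistribution (fun n ω => (√(len n))⁻¹ * psum X (len n) ω) atTop id
      (fun _ => P) (gaussianReal 0 1) :=
    ⟨fun n => ((measurable_psum h.meas _).const_mul _).aemeasurable, aemeasurable_id,
      hclt.tendsto.comp hlen⟩
  have hscale : TendstoInMeasure P (fun n (_ : Ω) => √((len n : ℝ) / n)) atTop fun _ => √(c : ℝ) :=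
    tendstoInMeasure_of_tendsto_ae (fun _ => aestronglyMeasurable_const)
      (Eventually.of_forall fun _ => hlim.sqrt)
  have hmul := hclt'.continuous_comp_prodMk_of_tendstoInMeasure_const
    (g := fun x : ℝ × ℝ => x.2 * x.1) (by fun_prop) hscale fun _ => aemeasurable_const
  refine ⟨fun n => (((measurable_psum h.meas _).sub (measurable_psum h.meas _)).div_const _
    ).aemeasurable, aemeasurable_id, ?_⟩
  convert hmul.tendsto using 1
  · funext n
    refine Subtype.ext ?_
    show P.map (fun ω => (psum X (b n) ω - psum X (a n) ω) / √n) =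
      P.map (fun ω => √((len n : ℝ) / n) * ((√(len n))⁻¹ * psum X (len n) ω))
    have e : (fun ω => √((len n : ℝ) / n) * ((√(len n))⁻¹ * psum X (len n) ω)) =
        fun ω => psum X (len n) ω / √n := funext fun ω => by
      rcases Nat.eq_zero_or_pos (len n) with h0 | h0
      · simp [h0, psum]
      · have : (0 : ℝ) < √(len n : ℝ) := Real.sqrt_pos.2 (Nat.cast_pos.2 h0)
        rw [Real.sqrt_div (Nat.cast_nonneg _)]
        field_simp
    have hd : Measurable fun x : ℝ => x / √n := measurable_id.div_const _
    have hm' : Measurable fun ω => psum X (b n) ω - psum X (a n) ω :=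
      (measurable_psum h.meas _).sub (measurable_psum h.meas _)
    rw [e, ← Function.comp_def (fun x : ℝ => x / √n) (fun ω => psum X (b n) ω - psum X (a n) ω),
      ← Measure.map_map hd hm',
      h.map_increment (hab n), Measure.map_map hd (measurable_psum h.meas _)]
    rfl
  · congr 1
    refine Subtype.ext ?_
    show Measure.map id (gaussianReal 0 c) =
      (gaussianReal 0 1).map (fun x : ℝ => √(c : ℝ) * id x)
    rw [Measure.map_id]
    simp only [id_eq]
    rw [gaussianReal_map_const_mul]
    congr 1
    · simp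
    · refine NNReal.eq ?_
      simp [Real.sq_sqrt hc0.le]

end FA.Donsker
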