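import Fermat.Agent.Brownian.Covariance
import Mathlib.Topology.ContinuousMap.Compact
import Mathlib.Topology.UnitInterval
import Mathlib.Topology.UniformSpace.HeineCantor

/-!
# Polygonal paths

`polyLine m s` is the polygonal path through the points `(j / m, s j - s 0)`. A polygon on a fine
grid is near the polygon through every `(n / m)`-th vertex when no block of vertices oscillates, and
polygons inscribed in a continuous path tend to it uniformly.
-/

set_option autoImplicit false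

noncomputable section

namespace FA.Donsker

open Finset Filter Topology
open scoped unitInterval
open FA.Brownian (ramp continuous_ramp ramp_eq_zero ramp_eq_one ramp_eq_self)

/-- One ramp of a polygon. -/
def rampC (m i : ℕ) : C(I, ℝ) :=
  ⟨fun t => ramp (m * (t : ℝ) - i),
    continuous_ramp.comp ((continuous_const.mul continuous_subtype_val).sub continuous_const)⟩

/-- The polygon with given increments. -/
def polyFin (m : ℕ) (d : Fin m → ℝ) : C(I, ℝ) := ∑ i : Fin m, d i • rampC m i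

theorem continuous_polyFin (m : ℕ) : Continuous (polyFin m) :=
  continuous_finsetSum _ fun i _ => (continuous_apply i).smul continuous_const

/-- The polygon through the values of a sequence. -/
def polyLine (m : ℕ) (s : ℕ → ℝ) : C(I, ℝ) := polyFin m fun i => s (i + 1) - s i

/-- A point of the interval lies in a cell. -/
theorem exists_cell {m : ℕ} (hm : 0 < m) (t : I) :
    ∃ j < m, ∃ θ ∈ Set.Icc (0 : ℝ) 1, (m : ℝ) * t = j + θ := by
  have h0 : 0 ≤ (m : ℝ) * t := mul_nonneg m.cast_nonneg t.2.1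
  refine ⟨min ⌊(m : ℝ) * t⌋₊ (m - 1), by omega, (m : ℝ) * t - (min ⌊(m : ℝ) * t⌋₊ (m - 1) : ℕ),
    ⟨?_, ?_⟩, by ring⟩
  · have : ((min ⌊(m : ℝ) * t⌋₊ (m - 1) : ℕ) : ℝ) ≤ ⌊(m : ℝ) * t⌋₊ := by
      exact_mod_cast min_le_left _ _
    linarith [Nat.floor_le h0]
  · rcases le_total ⌊(m : ℝ) * t⌋₊ (m - 1) with h | h
    · rw [min_eq_left h]
      linarith [Nat.lt_floor_add_one ((m : ℝ) * t)]
    · rw [min_eq_right h, Nat.cast_sub hm, Nat.cast_one]
      nlinarith [t.2.2, (show (1 : ℝ) ≤ m by exact_mod_cast hm)]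

theorem polyLine_apply {m j : ℕ} (hj : j < m) {θ : ℝ} (hθ : θ ∈ Set.Icc (0 : ℝ) 1) {t : I}
    (ht : (m : ℝ) * t = j + θ) (s : ℕ → ℝ) :
    polyLine m s t = (1 - θ) * s j + θ * s (j + 1) - s 0 := by
  have h1 : ∀ i ∈ range j, ramp ((m : ℝ) * t - i) = 1 := fun i hi => by
    have : ((i + 1 : ℕ) : ℝ) ≤ j := by exact_mod_cast mem_range.1 hi
    push_cast at this
    exact ramp_eq_one (by linarith [hθ.1])
  have h2 : ∀ i ∈ Ico (j + 1) m, (s (i + 1) - s i) * ramp ((m : ℝ) * t - i) = 0 := fun i hi => by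
    have : ((j + 1 : ℕ) : ℝ) ≤ i := by exact_mod_cast (mem_Ico.1 hi).1
    push_cast at this
    rw [ramp_eq_zero (x := (m : ℝ) * t - i) (by linarith [hθ.2]), mul_zero]
  rw [polyLine, polyFin, ContinuousMap.sum_apply]
  simp only [ContinuousMap.smul_apply, rampC, ContinuousMap.coe_mk, smul_eq_mul]
  rw [Fin.sum_univ_eq_sum_range fun i => (s (i + 1) - s i) * ramp ((m : ℝ) * t - i),
    ← sum_range_add_sum_Ico _ (by omega : j + 1 ≤ m), sum_eq_zero h2, add_zero, sum_range_succ,
    ht, add_sub_cancel_left, ramp_eq_self hθ.1 hθ.2,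
    sum_congr rfl fun i hi => show (s (i + 1) - s i) * ramp (j + θ - i) = s (i + 1) - s i by
      rw [← ht, h1 i hi, mul_one],
    sum_range_sub]
  ring

theorem polyLine_vertex {m k : ℕ} (hk : k ≤ m) (hm : 0 < m) (s : ℕ → ℝ) {t : I}
    (ht : (m : ℝ) * t = k) : polyLine m s t = s k - s 0 := by
  rcases hk.lt_or_eq with h | rfl
  · rw [polyLine_apply h ⟨le_rfl, zero_le_one⟩ (t := t) (by simpa using ht)]
    ring
  · obtain ⟨j, rfl⟩ := Nat.exists_eq_succ_of_ne_zero hm.ne'
    rw [polyLine_apply j.lt_succ_self ⟨zero_le_one, le_rfl⟩ (t := t) (by simpa using ht)]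
    ring

/-- A coarse polygon is near a fine one when no block oscillates. -/
theorem dist_polyLine_le {n m : ℕ} (hm : 0 < m) (hn : m ≤ n) (s : ℕ → ℝ) {δ : ℝ}
    (h : ∀ j < m, ∀ k, n * j / m ≤ k → k ≤ n * (j + 1) / m → |s k - s (n * j / m)| ≤ δ) :
    dist (polyLine n s) (polyLine m fun j => s (n * j / m)) ≤ 3 * δ := by
  have hn0 : 0 < n := hm.trans_le hn
  have hmr : (0 : ℝ) < m := Nat.cast_pos.2 hm
  have hnr : (0 : ℝ) < n := Nat.cast_pos.2 hn0
  have hmono : ∀ j, n * j / m ≤ n * (j + 1) / m := fun j =>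
    Nat.div_le_div_right (Nat.mul_le_mul_left n j.le_succ)
  have hδ : 0 ≤ δ := (abs_nonneg _).trans (h 0 hm (n * 0 / m) le_rfl (hmono 0))
  refine (ContinuousMap.dist_le (by positivity)).2 fun t => ?_
  obtain ⟨k, hk, θ, hθ, ek⟩ := exists_cell hn0 t
  obtain ⟨j, hj, η, hη, ej⟩ := exists_cell hm t
  rw [Real.dist_eq, polyLine_apply hk hθ ek, polyLine_apply hj hη ej]
  simp only [Nat.mul_zero, Nat.zero_div]
  set a := n * j / m
  set b := n * (j + 1) / m
  have hab : a ≤ b := hmono j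
  have ha : (a : ℝ) * m ≤ n * j := by exact_mod_cast Nat.div_mul_le_self (n * j) m
  have hb : (n : ℝ) * (j + 1) < (b + 1) * m := by
    exact_mod_cast Nat.lt_div_mul_add (a := n * (j + 1)) hm |>.trans_eq (Nat.succ_mul b m).symm
  have hkt : (n : ℝ) * j ≤ (k + θ) * m ∧ (k + θ) * m ≤ (n : ℝ) * (j + 1) := by
    have e : (k + θ) * m = n * (j + η) := by rw [← ek, ← ej]; ring
    rw [e]
    constructor <;> nlinarith [hη.1, hη.2]
  have hak : a ≤ k + 1 := by
    have : (a : ℝ) * m ≤ ((k + 1 : ℕ) : ℝ) * m := by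
      push_cast
      nlinarith [hθ.2]
    exact_mod_cast le_of_mul_le_mul_right this hmr
  have hkb : k ≤ b := by
    have : (k : ℝ) * m < ((b + 1 : ℕ) : ℝ) * m := by
      push_cast
      nlinarith [hθ.1]
    exact Nat.lt_succ_iff.1 (by exact_mod_cast lt_of_mul_lt_mul_right this hmr.le)
  have hblock : ∀ i, a ≤ i → i ≤ b + 1 → i ≤ n → |s i - s a| ≤ 2 * δ := by
    intro i hai hib hin
    rcases le_or_gt i b with hb' | hb'
    · exact (h j hj i hai hb').trans (by linarith)
    · have hi : i = b + 1 := by omega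
      have hj' : j + 1 < m := by
        by_contra hne
        have hbn : b = n := by
          show n * (j + 1) / m = n
          rw [show j + 1 = m by omega, Nat.mul_div_cancel _ hm]
        omega
      have hnext : b + 1 ≤ n * (j + 1 + 1) / m := by
        rw [Nat.le_div_iff_mul_le hm, mul_add n (j + 1) 1, add_mul, one_mul, mul_one]
        exact add_le_add (Nat.div_mul_le_self _ _) hn
      have h1 := h (j + 1) hj' i (by omega) (hi ▸ hnext)
      have h2 := h j hj b hab le_rfl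
      linarith [abs_sub_le (s i) (s b) (s a)]
  have hkn : |(1 - θ) * (s k - s a) + θ * (s (k + 1) - s a)| ≤ 2 * δ := by
    by_cases hka : a ≤ k
    · have h1 := hblock k hka (by omega) hk.le
      have h2 := hblock (k + 1) (by omega) (by omega) hk
      refine (abs_add_le _ _).trans ?_
      rw [abs_mul, abs_mul, abs_of_nonneg hθ.1, abs_of_nonneg (sub_nonneg.2 hθ.2)]
      nlinarith [mul_le_mul_of_nonneg_left h1 (sub_nonneg.2 hθ.2),
        mul_le_mul_of_nonneg_left h2 hθ.1]
    · have hka' : k + 1 = a := by omega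
      have hθ1 : θ = 1 := by
        have : ((k + 1 : ℕ) : ℝ) * m ≤ (k + θ) * m := by
          rw [hka']
          linarith
        push_cast at this
        linarith [le_of_mul_le_mul_right this hmr, hθ.2]
      rw [hθ1, hka']
      simpa using hδ
  have hjm : |η * (s b - s a)| ≤ δ := by
    rw [abs_mul, abs_of_nonneg hη.1]
    exact (mul_le_of_le_one_left (abs_nonneg _) hη.2).trans (h j hj b hab le_rfl)
  rw [show (1 - θ) * s k + θ * s (k + 1) - s 0 - ((1 - η) * s a + η * s b - s 0) =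
    ((1 - θ) * (s k - s a) + θ * (s (k + 1) - s a)) - η * (s b - s a) by ring]
  exact (abs_sub _ _).trans (by linarith)

/-- Inscribed polygons tend to a continuous path started at `0`. -/
theorem tendsto_polyLine {f : C(I, ℝ)} (hf : f 0 = 0) (s : ℕ → ℕ → ℝ)
    (hs : ∀ (m j : ℕ) (t : I), 0 < m → j ≤ m → (m : ℝ) * t = j → s m j = f t) :
    Tendsto (fun m => polyLine m (s m)) atTop (𝓝 f) := by
  rw [Metric.tendsto_atTop]
  intro ε hε
  obtain ⟨δ, hδ, hfδ⟩ := Metric.uniformContinuous_iff.1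
    (CompactSpace.uniformContinuous_of_continuous f.continuous) (ε / 2) (by linarith)
  obtain ⟨M, hM⟩ := exists_nat_gt (1 / δ)
  refine ⟨M, fun m hm => lt_of_le_of_lt ((ContinuousMap.dist_le (by linarith)).2 fun t => ?_)
    (show ε / 2 < ε by linarith)⟩
  have hm' : 1 / δ < m := hM.trans_le (by exact_mod_cast hm)
  have hm0 : (0 : ℝ) < m := lt_trans (by positivity) hm'
  have hinv : 1 / (m : ℝ) < δ := by
    rw [div_lt_iff₀ hm0]
    rw [div_lt_iff₀ hδ] at hm'
    linarith
  obtain ⟨j, hj, θ, hθ, ej⟩ := exists_cell (Nat.cast_pos.1 hm0) t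
  have hv : ∀ i, i ≤ m → (i : ℝ) / m ∈ I := fun i hi =>
    ⟨by positivity, div_le_one_of_le₀ (by exact_mod_cast hi) hm0.le⟩
  have he : ∀ i (hi : i ≤ m), |(m : ℝ) * t - i| ≤ 1 → dist (f t) (s m i) < ε / 2 := by
    intro i hi hd
    rw [hs m i ⟨_, hv i hi⟩ (Nat.cast_pos.1 hm0) hi (mul_div_cancel₀ _ hm0.ne')]
    refine hfδ (lt_of_le_of_lt ?_ hinv)
    rw [Subtype.dist_eq, Real.dist_eq, le_div_iff₀ hm0]
    calc |(t : ℝ) - i / m| * m = |((t : ℝ) - i / m) * m| := by rw [abs_mul, abs_of_pos hm0]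
      _ = |(m : ℝ) * t - i| := by rw [sub_mul, div_mul_cancel₀ _ hm0.ne', mul_comm]
      _ ≤ 1 := hd
  have h0 : s m 0 = 0 := by
    rw [hs m 0 0 (Nat.cast_pos.1 hm0) (Nat.zero_le _) (by simp), hf]
  have h1 := he j hj.le (by rw [ej, add_sub_cancel_left, abs_of_nonneg hθ.1]; exact hθ.2)
  have h2 := he (j + 1) hj (by
    rw [ej]
    push_cast
    rw [abs_le]
    constructor <;> linarith [hθ.1, hθ.2])
  rw [dist_comm, Real.dist_eq, polyLine_apply hj hθ ej, h0, sub_zero]
  rw [Real.dist_eq] at h1 h2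
  rw [show f t - ((1 - θ) * s m j + θ * s m (j + 1)) =
    (1 - θ) * (f t - s m j) + θ * (f t - s m (j + 1)) by ring]
  refine (abs_add_le _ _).trans ?_
  rw [abs_mul, abs_mul, abs_of_nonneg hθ.1, abs_of_nonneg (sub_nonneg.2 hθ.2)]
  nlinarith [mul_le_mul_of_nonneg_left h1.le (sub_nonneg.2 hθ.2),
    mul_le_mul_of_nonneg_left h2.le hθ.1]

end FA.Donsker
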