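import Fermat.Agent.Donsker.Interp
import Fermat.Agent.Donsker.Blocks
import Fermat.Agent.Brownian.Nowhere

/-!
# Donsker's invariance principle

The polygon through the block increments tends in distribution to the inscribed polygon of the
Brownian path, and Ottaviani's inequality makes both close to the paths themselves.
-/

set_option autoImplicit false

noncomputable section

namespace FA.Donsker

open MeasureTheory ProbabilityTheory Filter Topology Finset
open scoped unitInterval NNReal ENNReal
open FA.Brownian (gridTime coe_gridTime monotone_gridTime)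

variable {Ω Ω' : Type*} {mΩ : MeasurableSpace Ω} {mΩ' : MeasurableSpace Ω'} {P : Measure Ω}
  {Q : Measure Ω'} {X : ℕ → Ω → ℝ} {B : ℝ≥0 → Ω' → ℝ}

/-- The rescaled, linearly interpolated walk. -/
def walkPath (X : ℕ → Ω → ℝ) (n : ℕ) (ω : Ω) : C(I, ℝ) := polyLine n fun k => psum X k ω / √n

/-- The cut points of `m` blocks. -/
def cut (n m j : ℕ) : ℕ := n * j / m

theorem monotone_cut (n m : ℕ) : Monotone (cut n m) := fun _ _ h =>
  Nat.div_le_div_right (Nat.mul_le_mul_left n h)

/-- The rescaled block increments. -/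
def blockVec (X : ℕ → Ω → ℝ) (n m : ℕ) (ω : Ω) : Fin m → ℝ :=
  fun j => blockInc X (cut n m) j ω / √n

theorem polyFin_blockVec (n m : ℕ) (ω : Ω) :
    polyFin m (blockVec X n m ω) = polyLine m fun j => psum X (cut n m j) ω / √n := by
  unfold polyLine blockVec blockInc
  congr 1
  funext j
  exact sub_div _ _ _

theorem measurable_blockVec (hm : ∀ i, Measurable (X i)) (n m : ℕ) :
    Measurable (blockVec X n m) :=
  measurable_pi_lambda _ fun j : Fin m => (measurable_blockInc hm (cut n m) j).div_const _

theorem continuous_polyLine (m : ℕ) : Continuous (polyLine m) :=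
  (continuous_polyFin m).comp
    (continuous_pi fun i => (continuous_apply ((i : ℕ) + 1)).sub (continuous_apply (i : ℕ)))

theorem cut_bounds {n m : ℕ} (hm : 0 < m) (j : ℕ) :
    (n : ℝ) / m - 1 ≤ ((cut n m (j + 1) - cut n m j : ℕ) : ℝ) ∧
      ((cut n m (j + 1) - cut n m j : ℕ) : ℝ) ≤ (n : ℝ) / m + 1 := by
  have hmr : (0 : ℝ) < m := Nat.cast_pos.2 hm
  have h : ∀ i, (cut n m i : ℝ) * m ≤ n * i ∧ (n : ℝ) * i < ((cut n m i : ℝ) + 1) * m := fun i =>
    ⟨by exact_mod_cast Nat.div_mul_le_self (n * i) m,
     by exact_mod_cast Nat.lt_div_mul_add (a := n * i) hm |>.trans_eq (Nat.succ_mul _ m).symm⟩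
  obtain ⟨h1, h2⟩ := h j
  obtain ⟨h3, h4⟩ := h (j + 1)
  push_cast at h3 h4
  rw [Nat.cast_sub (monotone_cut n m j.le_succ)]
  constructor
  · rw [sub_le_iff_le_add, div_le_iff₀ hmr]
    nlinarith
  · rw [div_add_one hmr.ne', le_div_iff₀ hmr]
    nlinarith

/-- **The finite dimensional convergence.** -/
theorem WalkStep.tendsto_blockVec [IsProbabilityMeasure P] (h : WalkStep X P) {m : ℕ} (hm : 0 < m) :
    TendstoInDistribution (fun n => blockVec X n m) atTop id (fun _ => P)
      (Measure.pi fun _ : Fin m => gaussianReal 0 (1 / m)) := by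
  have hblock : ∀ j : Fin m, TendstoInDistribution
      (fun n ω => blockInc X (cut n m) j ω / √n) atTop id (fun _ => P)
      (gaussianReal 0 (1 / m)) := by
    intro j
    refine h.tendsto_block (a := fun n => cut n m j) (b := fun n => cut n m (j + 1))
      (fun n => monotone_cut n m (j : ℕ).le_succ) (by positivity) ?_
    have h1 := tendsto_inv_atTop_zero.comp (tendsto_natCast_atTop_atTop (R := ℝ))
    have hlo : Tendsto (fun n : ℕ => (1 : ℝ) / m - (n : ℝ)⁻¹) atTop (𝓝 (1 / m)) := by
      simpa using h1.const_sub ((1 : ℝ) / m)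
    have hhi : Tendsto (fun n : ℕ => (1 : ℝ) / m + (n : ℝ)⁻¹) atTop (𝓝 (1 / m)) := by
      simpa using h1.const_add ((1 : ℝ) / m)
    rw [show (((1 / m : ℝ≥0)) : ℝ) = 1 / (m : ℝ) by push_cast; ring]
    refine tendsto_of_tendsto_of_tendsto_of_le_of_le' hlo hhi ?_ ?_ <;>
      filter_upwards [eventually_ge_atTop 1] with n hn
    · have hn' : (0 : ℝ) < n := Nat.cast_pos.2 hn
      rw [le_div_iff₀ hn', sub_mul, inv_mul_cancel₀ hn'.ne', div_mul_eq_mul_div, one_mul]
      exact (cut_bounds hm j).1
    · have hn' : (0 : ℝ) < n := Nat.cast_pos.2 hn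
      rw [div_le_iff₀ hn', add_mul, inv_mul_cancel₀ hn'.ne', div_mul_eq_mul_div, one_mul]
      exact (cut_bounds hm j).2
  refine ⟨fun n => (measurable_blockVec h.meas n m).aemeasurable, aemeasurable_id, ?_⟩
  have hpi := ((ProbabilityMeasure.continuous_pi (α := fun _ : Fin m => ℝ)).tendsto _).comp
    (tendsto_pi_nhds.2 fun j => (hblock j).tendsto)
  convert hpi using 1
  · funext n
    refine Subtype.ext ?_
    show P.map (blockVec X n m) =
      Measure.pi fun j : Fin m => P.map (fun ω => blockInc X (cut n m) j ω / √n)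
    have hd : Measurable fun x : ℝ => x / √n := measurable_id.div_const _
    have hv : Measurable fun ω (j : Fin m) => blockInc X (cut n m) j ω :=
      measurable_pi_lambda _ fun j : Fin m => measurable_blockInc h.meas _ j
    have : ∀ j : Fin m, IsProbabilityMeasure (P.map (blockInc X (cut n m) j)) := fun j =>
      Measure.isProbabilityMeasure_map (measurable_blockInc h.meas _ j).aemeasurable
    have hd' : Measurable fun (v : Fin m → ℝ) j => v j / √n :=
      measurable_pi_lambda _ fun j : Fin m => (measurable_pi_apply j).div_const _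
    rw [show blockVec X n m = (fun (v : Fin m → ℝ) j => v j / √n) ∘
        fun ω (j : Fin m) => blockInc X (cut n m) j ω from rfl,
      ← Measure.map_map hd' hv,
      map_blocks h.indep h.meas (monotone_cut n m) m,
      Measure.pi_map_pi fun j => hd.aemeasurable]
    congr 1
    funext j
    exact Measure.map_map hd (measurable_blockInc h.meas _ j)
  · congr 1
    refine Subtype.ext ?_
    show Measure.map id (Measure.pi fun _ : Fin m => gaussianReal 0 (1 / m)) =
      Measure.pi fun _ : Fin m => Measure.map id (gaussianReal 0 (1 / m))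
    simp only [Measure.map_id]

/-- The increments of the Brownian path over a grid. -/
def bmInc (B : ℝ≥0 → Ω' → ℝ) (m : ℕ) (ω : Ω') : Fin m → ℝ :=
  fun j => B (gridTime m (j + 1)) ω - B (gridTime m j) ω

theorem hasLaw_bmInc (hB : IsPreBrownianReal B Q) (m : ℕ) :
    HasLaw (bmInc B m) (Measure.pi fun _ : Fin m => gaussianReal 0 (1 / m)) Q := by
  have := hB.isGaussianProcess.isProbabilityMeasure
  have hae : ∀ j : Fin m, AEMeasurable (fun ω => bmInc B m ω j) Q := fun j =>
    (hB.aemeasurable _).sub (hB.aemeasurable _)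
  refine ⟨aemeasurable_pi_lambda _ hae, ?_⟩
  have hind : iIndepFun (fun (j : Fin m) ω => bmInc B m ω j) Q :=
    (hB.hasIndepIncrements.nat (monotone_gridTime m)).precomp Fin.val_injective
  rw [hind.map_fun_eq_pi_map hae]
  congr 1
  funext j
  show Q.map (B (gridTime m (j + 1)) - B (gridTime m j)) = _
  rw [(hB.hasLaw_sub _ _).map_eq]
  congr 1
  refine NNReal.eq ?_
  simp only [coe_nndist, Real.dist_eq, NNReal.val_eq_coe, coe_gridTime]
  push_cast
  rw [div_sub_div_same, add_sub_cancel_left, abs_of_nonneg (by positivity)]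

/-- The fourth moment of the standard normal law. -/
def normalFourth : ℝ := ∫ x, x ^ 4 ∂gaussianReal 0 1

theorem integrable_pow_four (v : ℝ≥0) : Integrable (fun x : ℝ => x ^ 4) (gaussianReal 0 v) := by
  have h := (memLp_id_gaussianReal' (μ := 0) (v := v) 4 (by simp)).integrable_norm_pow
    (p := 4) (by norm_num)
  refine h.congr (Eventually.of_forall fun x => ?_)
  show ‖id x‖ ^ 4 = x ^ 4
  rw [Real.norm_eq_abs, id_eq, (show Even 4 from ⟨2, rfl⟩).pow_abs]

theorem integral_pow_four (v : ℝ≥0) :
    ∫ x, x ^ 4 ∂gaussianReal 0 v = (v : ℝ) ^ 2 * normalFourth := by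
  have e : gaussianReal 0 v = (gaussianReal 0 1).map (√(v : ℝ) * ·) := by
    rw [gaussianReal_map_const_mul]
    congr 1
    · simp
    · exact NNReal.eq (by simp [Real.sq_sqrt v.coe_nonneg])
  rw [e, integral_map (by fun_prop) (by fun_prop), normalFourth, ← integral_const_mul]
  congr 1
  funext x
  rw [mul_pow, show √(v : ℝ) ^ 4 = (√(v : ℝ) ^ 2) ^ 2 by ring, Real.sq_sqrt v.coe_nonneg]

/-- A block increment rarely exceeds `δ`. -/
theorem WalkStep.eventually_tail [IsProbabilityMeasure P] (h : WalkStep X P) {m : ℕ} (hm : 0 < m)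
    {δ : ℝ} (hδ : 0 < δ) (j : Fin m) :
    ∀ᶠ n : ℕ in atTop, P {ω | δ < |blockVec X n m ω j|} ≤
      ENNReal.ofReal ((normalFourth / δ ^ 4 + 1) / (m : ℝ) ^ 2) := by
  set g : BoundedContinuousFunction (Fin m → ℝ) ℝ :=
    BoundedContinuousFunction.ofNormedAddCommGroup (fun x => min 1 ((x j / δ) ^ 4)) (by fun_prop) 1
      fun x => by
        rw [Real.norm_of_nonneg (le_min zero_le_one (by positivity))]
        exact min_le_left _ _
  have hlim := ProbabilityMeasure.tendsto_iff_forall_integral_tendsto.1
    (h.tendsto_blockVec hm).tendsto g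
  simp only [ProbabilityMeasure.coe_mk] at hlim
  rw [Measure.map_id] at hlim
  have hlt : ∫ x, g x ∂(Measure.pi fun _ : Fin m => gaussianReal 0 (1 / m)) <
      (normalFourth / δ ^ 4 + 1) / (m : ℝ) ^ 2 := by
    refine lt_of_le_of_lt (b := ∫ x : Fin m → ℝ, (x j) ^ 4 / δ ^ 4
      ∂(Measure.pi fun _ : Fin m => gaussianReal 0 (1 / m))) ?_ ?_
    · refine integral_mono (g.integrable _) ?_ fun x => (min_le_right _ _).trans_eq (div_pow _ _ _)
      exact (((measurePreserving_eval (fun _ : Fin m => gaussianReal 0 (1 / m)) j).integrable_comp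
        (by fun_prop)).2 (integrable_pow_four _)).div_const _
    · rw [integral_comp_eval (μ := fun _ : Fin m => gaussianReal 0 (1 / m))
        (f := fun y : ℝ => y ^ 4 / δ ^ 4) (by fun_prop), integral_div, integral_pow_four]
      push_cast
      rw [div_pow, one_pow, one_div_mul_eq_div, div_right_comm, div_lt_div_iff_of_pos_right
        (by positivity)]
      linarith
  filter_upwards [hlim.eventually_lt_const hlt] with n hn
  rw [integral_map (measurable_blockVec h.meas n m).aemeasurable g.continuous.aestronglyMeasurable]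
    at hn
  have hmeas : MeasurableSet {ω | δ < |blockVec X n m ω j|} :=
    measurableSet_lt measurable_const
      ((measurable_pi_apply j).comp (measurable_blockVec h.meas n m)).abs
  have hle : P.real {ω | δ < |blockVec X n m ω j|} ≤ ∫ ω, g (blockVec X n m ω) ∂P := by
    rw [← integral_indicator_one hmeas]
    refine integral_mono ((integrable_const (1 : ℝ)).indicator hmeas)
      (Integrable.of_bound (g.continuous.measurable.comp
        (measurable_blockVec h.meas n m)).aestronglyMeasurable 1
          (Eventually.of_forall fun ω => ?_)) fun ω => ?_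
    · rw [Real.norm_eq_abs, abs_of_nonneg]
      · exact min_le_left _ _
      · exact le_min zero_le_one (by positivity)
    · by_cases hω : ω ∈ {ω | δ < |blockVec X n m ω j|}
      · rw [Set.indicator_of_mem hω]
        refine le_min le_rfl ?_
        show (1 : ℝ) ≤ (blockVec X n m ω j / δ) ^ 4
        rw [div_pow, one_le_div (by positivity), ← abs_of_pos hδ,
          ← (show Even 4 from ⟨2, rfl⟩).pow_abs (blockVec X n m ω j), abs_of_pos hδ]
        exact pow_le_pow_left₀ hδ.le (show δ < |blockVec X n m ω j| from hω).le 4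
      · rw [Set.indicator_of_notMem hω]
        exact le_min zero_le_one (by positivity)
  rw [← ofReal_measureReal (measure_ne_top _ _)]
  exact ENNReal.ofReal_le_ofReal (hle.trans hn.le)

/-- **The walk is near its coarse polygon.** -/
theorem WalkStep.eventually_close [IsProbabilityMeasure P] (h : WalkStep X P) {ε : ℝ} (hε : 0 < ε)
    {m : ℕ} (hm : 0 < m) (hmε : 144 / ε ^ 2 ≤ (m : ℝ)) :
    ∀ᶠ n : ℕ in atTop, P {ω | ε < dist (walkPath X n ω) (polyFin m (blockVec X n m ω))} ≤
      ENNReal.ofReal (2 * (normalFourth / (ε / 6) ^ 4 + 1) / m) := by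
  filter_upwards [eventually_all.2 fun j : Fin m =>
    h.eventually_tail hm (show 0 < ε / 6 by linarith) j, eventually_ge_atTop m] with n hn hnm
  have hn0 : (0 : ℝ) < n := Nat.cast_pos.2 (hm.trans_le hnm)
  have hmr : (0 : ℝ) < m := Nat.cast_pos.2 hm
  have hs : 0 < √(n : ℝ) := Real.sqrt_pos.2 hn0
  set c := ε / 6 * √(n : ℝ)
  have hsub : {ω | ε < dist (walkPath X n ω) (polyFin m (blockVec X n m ω))} ⊆
      ⋃ j : Fin m, {ω | ∃ k ≤ cut n m (j + 1) - cut n m j,
        2 * c < |psum (fun i => X (cut n m j + i)) k ω|} := by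
    intro ω hω
    by_contra hne
    simp only [Set.mem_iUnion, Set.mem_ofPred_eq, not_exists, not_and, not_lt] at hne
    have hd : dist (walkPath X n ω) (polyFin m (blockVec X n m ω)) ≤ 3 * (ε / 3) := by
      rw [polyFin_blockVec]
      refine dist_polyLine_le hm hnm (fun k => psum X k ω / √n) fun j hj k hk1 hk2 => ?_
      show |psum X k ω / √n - psum X (cut n m j) ω / √n| ≤ ε / 3
      have h1 : cut n m j ≤ k := hk1
      have := hne ⟨j, hj⟩ (k - cut n m j) (Nat.sub_le_sub_right hk2 _)
      rw [← sub_div, abs_div, abs_of_pos hs, div_le_iff₀ hs, psum_sub h1, sum_Ico_eq_sum_range]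
      exact this.trans_eq (by simp only [c]; ring)
    have hω' : ε < dist (walkPath X n ω) (polyFin m (blockVec X n m ω)) := hω
    linarith
  refine (measure_mono hsub).trans ((measure_iUnion_fintype_le _ _).trans ?_)
  refine (sum_le_sum fun j _ => ?_).trans_eq (b := ∑ _j : Fin m,
    2 * ENNReal.ofReal ((normalFourth / (ε / 6) ^ 4 + 1) / (m : ℝ) ^ 2)) ?_
  · set a := cut n m j
    set L := cut n m (j + 1) - a
    have hab : a + L = cut n m (j + 1) := Nat.add_sub_cancel' (monotone_cut n m (j : ℕ).le_succ)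
    have hsum : ∀ k ω, psum (fun i => X (a + i)) k ω = psum X (a + k) ω - psum X a ω :=
        fun k ω => by
      rw [psum_sub (Nat.le_add_right a k), sum_Ico_eq_sum_range, Nat.add_sub_cancel_left]
      rfl
    refine (ottaviani (h.indep.precomp (add_right_injective a)) (fun i => h.meas (a + i))
      fun k hk => ?_).trans ?_
    · simp only [hsum, sub_sub_sub_cancel_right]
      refine h.half_le_increment (by omega) (by positivity) ?_
      have hL : (L : ℝ) ≤ (n : ℝ) / m + 1 := (cut_bounds hm j).2
      have h1 : (1 : ℝ) ≤ (n : ℝ) / m := (one_le_div hmr).2 (by exact_mod_cast hnm)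
      have h2 : 144 ≤ (m : ℝ) * ε ^ 2 := (div_le_iff₀ (by positivity)).1 hmε
      have h3 : 4 * ((n : ℝ) / m) ≤ c ^ 2 := by
        rw [mul_pow, Real.sq_sqrt hn0.le, mul_div_assoc', div_le_iff₀ hmr]
        nlinarith [mul_le_mul_of_nonneg_left h2 hn0.le]
      push_cast
      linarith [(Nat.cast_nonneg k : (0 : ℝ) ≤ k)]
    · refine mul_le_mul_of_nonneg_left ?_ zero_le
      refine le_trans (measure_mono fun ω hω => ?_) (hn j)
      have h1 : c < |psum (fun i => X (a + i)) L ω| := hω
      show ε / 6 < |blockInc X (cut n m) j ω / √n|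
      rw [abs_div, abs_of_pos hs, lt_div_iff₀ hs]
      rw [hsum, hab] at h1
      exact h1
  · rw [sum_const, card_univ, Fintype.card_fin, nsmul_eq_mul, ← ENNReal.ofReal_natCast,
      show (2 : ℝ≥0∞) = ENNReal.ofReal 2 by simp, ← ENNReal.ofReal_mul (by norm_num),
      ← ENNReal.ofReal_mul (Nat.cast_nonneg _)]
    congr 1
    field_simp

end FA.Donsker
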