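import Mathlib.Probability.Independence.Basic
import Mathlib.MeasureTheory.Constructions.BorelSpace.Real
import Mathlib.MeasureTheory.Measure.Real
import Mathlib.Tactic

/-!
# First passage and maximal inequalities

The first passage of the partial sums of independent variables is independent of the later
increments. This gives Ottaviani's inequality and, for symmetric increments, Lévy's reflection
inequalities in both directions.
-/

set_option autoImplicit false

noncomputable section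

namespace FA.Donsker

open MeasureTheory ProbabilityTheory Finset
open scoped ENNReal

variable {Ω : Type*} {mΩ : MeasurableSpace Ω} {P : Measure Ω} {X : ℕ → Ω → ℝ}

/-- The partial sums. -/
def psum (X : ℕ → Ω → ℝ) (k : ℕ) (ω : Ω) : ℝ := ∑ i ∈ range k, X i ω

theorem measurable_psum (hm : ∀ i, Measurable (X i)) (k : ℕ) : Measurable (psum X k) :=
  Finset.measurable_sum _ fun i _ => hm i

theorem psum_sub {k L : ℕ} (h : k ≤ L) (ω : Ω) :
    psum X L ω - psum X k ω = ∑ i ∈ Ico k L, X i ω := by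
  rw [psum, psum, ← sum_Ico_eq_sub _ h]

/-- The past and the future are independent. -/
theorem indepFun_past_future (hI : iIndepFun X P) (hm : ∀ i, Measurable (X i)) {k L : ℕ}
    (hkL : k ≤ L) :
    IndepFun (fun ω (j : Fin (k + 1)) => psum X j ω) (fun ω => psum X L ω - psum X k ω) P := by
  have hd : Disjoint (range k) (Ico k L) := disjoint_left.2 fun i h1 h2 =>
    absurd (mem_range.1 h1) (not_lt.2 (mem_Ico.1 h2).1)
  have h := (hI.indepFun_finset _ _ hd hm).comp
    (φ := fun f (j : Fin (k + 1)) => ∑ i : range k, if i.1 < (j : ℕ) then f i else 0)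
    (ψ := fun f => ∑ i : Ico k L, f i)
    (measurable_pi_iff.2 fun j => Finset.measurable_sum _ fun i _ => by
      by_cases hi : i.1 < (j : ℕ)
      · simpa only [if_pos hi] using measurable_pi_apply i
      · simpa only [if_neg hi] using measurable_const)
    (Finset.measurable_sum _ fun i _ => measurable_pi_apply i)
  convert h using 1
  · funext ω j
    rw [Function.comp_apply, sum_coe_sort (range k) fun i => if i < (j : ℕ) then X i ω else 0,
      ← sum_filter, psum]
    congr 1
    ext i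
    simp only [mem_filter, mem_range]
    omega
  · funext ω
    rw [Function.comp_apply, psum_sub hkL, sum_coe_sort (Ico k L) fun i => X i ω]

/-- The first passage into `U` happens at time `k`. -/
def firstAt (X : ℕ → Ω → ℝ) (U : Set ℝ) (k : ℕ) : Set Ω :=
  {ω | psum X k ω ∈ U ∧ ∀ i < k, psum X i ω ∉ U}

theorem measurableSet_firstAt (hm : ∀ i, Measurable (X i)) {U : Set ℝ} (hU : MeasurableSet U)
    (k : ℕ) : MeasurableSet (firstAt X U k) := by
  have e : firstAt X U k = psum X k ⁻¹' U ∩ ⋂ i ∈ range k, (psum X i ⁻¹' U)ᶜ := by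
    ext ω
    simp [firstAt]
  rw [e]
  exact (measurable_psum hm k hU).inter
    (Finset.measurableSet_biInter _ fun i _ => (measurable_psum hm i hU).compl)

theorem firstAt_unique {U : Set ℝ} {i j : ℕ} {ω : Ω} (hi : ω ∈ firstAt X U i)
    (hj : ω ∈ firstAt X U j) : i = j := by
  rcases lt_trichotomy i j with h | h | h
  · exact absurd hi.1 (hj.2 i h)
  · exact h
  · exact absurd hj.1 (hi.2 j h)

theorem exists_firstAt {U : Set ℝ} {k : ℕ} {ω : Ω} (hk : psum X k ω ∈ U) :
    ∃ i ≤ k, ω ∈ firstAt X U i := by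
  classical
  have hex : ∃ i, psum X i ω ∈ U := ⟨k, hk⟩
  exact ⟨Nat.find hex, Nat.find_min' hex hk, Nat.find_spec hex, fun i hi => Nat.find_min hex hi⟩

theorem measure_firstAt_inter (hI : iIndepFun X P) (hm : ∀ i, Measurable (X i)) {k L : ℕ}
    (hkL : k ≤ L) {U W V : Set ℝ} (hU : MeasurableSet U) (hW : MeasurableSet W)
    (hV : MeasurableSet V) :
    P (firstAt X U k ∩ psum X k ⁻¹' W ∩ (fun ω => psum X L ω - psum X k ω) ⁻¹' V) =
      P (firstAt X U k ∩ psum X k ⁻¹' W) *
        P ((fun ω => psum X L ω - psum X k ω) ⁻¹' V) := by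
  set A : Set (Fin (k + 1) → ℝ) := {f | f (Fin.last k) ∈ U ∧
    ∀ i : Fin (k + 1), (i : ℕ) < k → f i ∉ U} ∩ {f | f (Fin.last k) ∈ W}
  have hA : MeasurableSet A := by
    refine MeasurableSet.inter ?_ (measurable_pi_apply (Fin.last k) hW)
    have e : {f : Fin (k + 1) → ℝ | f (Fin.last k) ∈ U ∧
        ∀ i : Fin (k + 1), (i : ℕ) < k → f i ∉ U} = (fun f => f (Fin.last k)) ⁻¹' U ∩
          ⋂ i ∈ (univ : Finset (Fin (k + 1))).filter (fun i : Fin (k + 1) => (i : ℕ) < k),
            ((fun f => f i) ⁻¹' U)ᶜ := by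
      ext f
      simp
    rw [e]
    exact (measurable_pi_apply (Fin.last k) hU).inter
      (Finset.measurableSet_biInter _ fun i _ => (measurable_pi_apply i hU).compl)
  have e : firstAt X U k ∩ psum X k ⁻¹' W =
      (fun ω (j : Fin (k + 1)) => psum X j ω) ⁻¹' A := by
    ext ω
    constructor
    · rintro ⟨⟨h1, h2⟩, h3⟩
      exact ⟨⟨by simpa using h1, fun i hi => h2 i hi⟩, by simpa using h3⟩
    · rintro ⟨⟨h1, h2⟩, h3⟩
      exact ⟨⟨by simpa using h1, fun i hi => h2 ⟨i, by omega⟩ hi⟩, by simpa using h3⟩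
  rw [e]
  exact indepFun_iff_measure_inter_preimage_eq_mul.1 (indepFun_past_future hI hm hkL) A V hA hV

/-- Disjoint events inside a given one. -/
theorem sum_measure_le (hI : iIndepFun X P) (hm : ∀ i, Measurable (X i)) {L : ℕ} {U W : Set ℝ}
    {V : ℕ → Set ℝ} (hU : MeasurableSet U) (hW : MeasurableSet W) (hV : ∀ k, MeasurableSet (V k))
    {E : Set Ω}
    (hE : ∀ k ≤ L, firstAt X U k ∩ psum X k ⁻¹' W ∩
      (fun ω => psum X L ω - psum X k ω) ⁻¹' V k ⊆ E) :
    ∑ k ∈ range (L + 1), P (firstAt X U k ∩ psum X k ⁻¹' W) *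
      P ((fun ω => psum X L ω - psum X k ω) ⁻¹' V k) ≤ P E := by
  rw [← sum_congr rfl fun k hk =>
    measure_firstAt_inter hI hm (Nat.lt_succ_iff.1 (mem_range.1 hk)) hU hW (hV k),
    ← measure_biUnion_finset]
  · exact measure_mono (Set.iUnion₂_subset fun k hk =>
      hE k (Nat.lt_succ_iff.1 (mem_range.1 hk)))
  · intro i _ j _ hij
    exact Set.disjoint_left.2 fun ω hi hj => hij (firstAt_unique hi.1.1 hj.1.1)
  · exact fun k _ => ((measurableSet_firstAt hm hU k).inter (measurable_psum hm k hW)).inter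
      (((measurable_psum hm L).sub (measurable_psum hm k)) (hV k))

theorem measure_exists_le_sum {L : ℕ} (U : Set ℝ) :
    P {ω | ∃ k ≤ L, psum X k ω ∈ U} ≤
      ∑ k ∈ range (L + 1), P (firstAt X U k ∩ psum X k ⁻¹' Set.univ) := by
  refine (measure_mono fun ω hω => ?_).trans (measure_biUnion_finset_le _ _)
  obtain ⟨k, hk, hω⟩ := hω
  obtain ⟨i, hi, hiω⟩ := exists_firstAt hω
  exact Set.mem_iUnion₂.2 ⟨i, mem_range.2 (Nat.lt_succ_of_le (hi.trans hk)), hiω, trivial⟩

/-- The first passages, each weighted by the probability of its future event. -/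
theorem half_mul_exists_le (hI : iIndepFun X P) (hm : ∀ i, Measurable (X i)) {L : ℕ} {U : Set ℝ}
    {V : ℕ → Set ℝ} (hU : MeasurableSet U) (hV : ∀ k, MeasurableSet (V k))
    (hp : ∀ k ≤ L, 2⁻¹ ≤ P ((fun ω => psum X L ω - psum X k ω) ⁻¹' V k)) {E : Set Ω}
    (hE : ∀ k ≤ L, ∀ ω, psum X k ω ∈ U → psum X L ω - psum X k ω ∈ V k → ω ∈ E) :
    P {ω | ∃ k ≤ L, psum X k ω ∈ U} ≤ 2 * P E := by
  refine (measure_exists_le_sum U).trans ?_
  have h := sum_measure_le hI hm (L := L) hU MeasurableSet.univ hV (E := E)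
    fun k hk ω hω => hE k hk ω hω.1.1.1 hω.2
  refine le_trans ?_ (mul_le_mul_of_nonneg_left h (zero_le : (0 : ℝ≥0∞) ≤ 2))
  rw [mul_sum]
  refine sum_le_sum fun k hk => ?_
  calc P (firstAt X U k ∩ psum X k ⁻¹' Set.univ)
      = 2 * (P (firstAt X U k ∩ psum X k ⁻¹' Set.univ) * 2⁻¹) := by
        rw [mul_left_comm, ENNReal.mul_inv_cancel two_ne_zero ENNReal.ofNat_ne_top, mul_one]
    _ ≤ _ := by
        gcongr
        exact hp k (Nat.lt_succ_iff.1 (mem_range.1 hk))

/-- **The maximal inequality of Ottaviani.** -/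
theorem ottaviani (hI : iIndepFun X P) (hm : ∀ i, Measurable (X i)) {L : ℕ} {c : ℝ}
    (hp : ∀ k ≤ L, 2⁻¹ ≤ P {ω | |psum X L ω - psum X k ω| ≤ c}) :
    P {ω | ∃ k ≤ L, 2 * c < |psum X k ω|} ≤ 2 * P {ω | c < |psum X L ω|} :=
  half_mul_exists_le hI hm (U := {y | 2 * c < |y|}) (V := fun _ => {y | |y| ≤ c})
    (measurableSet_lt measurable_const continuous_abs.measurable)
    (fun _ => measurableSet_le continuous_abs.measurable measurable_const) hp fun k _ ω h1 h2 => by
      have h1' : 2 * c < |psum X k ω| := h1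
      have h2' : |psum X L ω - psum X k ω| ≤ c := h2
      show c < |psum X L ω|
      linarith [abs_sub_abs_le_abs_sub (psum X k ω) (psum X L ω),
        abs_sub_comm (psum X k ω) (psum X L ω)]

/-- The law of every later increment is symmetric. -/
def SymmTail (X : ℕ → Ω → ℝ) (P : Measure Ω) (L : ℕ) : Prop :=
  ∀ k ≤ L, ∀ V : Set ℝ, MeasurableSet V →
    P ((fun ω => psum X L ω - psum X k ω) ⁻¹' V) =
      P ((fun ω => psum X L ω - psum X k ω) ⁻¹' ((fun y => -y) ⁻¹' V))

/-- **Lévy's inequality.** -/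
theorem levy_upper [IsProbabilityMeasure P] (hI : iIndepFun X P) (hm : ∀ i, Measurable (X i))
    {L : ℕ} (hs : SymmTail X P L) (a : ℝ) :
    P {ω | ∃ k ≤ L, a ≤ psum X k ω} ≤ 2 * P {ω | a ≤ psum X L ω} := by
  refine half_mul_exists_le hI hm (U := Set.Ici a) (V := fun _ => Set.Ici 0) measurableSet_Ici
    (fun _ => measurableSet_Ici) (fun k hk => ?_) fun k _ ω h1 h2 => ?_
  · have hcover : (1 : ℝ≥0∞) ≤ P ((fun ω => psum X L ω - psum X k ω) ⁻¹' Set.Ici 0) +
        P ((fun ω => psum X L ω - psum X k ω) ⁻¹' ((fun y => -y) ⁻¹' Set.Ici 0)) := by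
      rw [← measure_univ (μ := P)]
      refine (measure_mono fun ω _ => ?_).trans (measure_union_le _ _)
      rcases le_total 0 (psum X L ω - psum X k ω) with h | h
      · exact Or.inl h
      · exact Or.inr (show 0 ≤ -(psum X L ω - psum X k ω) by linarith)
    rw [← hs k hk _ measurableSet_Ici] at hcover
    rw [ENNReal.inv_le_iff_le_mul (by simp) (by simp), two_mul]
    exact hcover
  · have h1' : a ≤ psum X k ω := h1
    have h2' : 0 ≤ psum X L ω - psum X k ω := h2
    show a ≤ psum X L ω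
    linarith

/-- **The reflection inequality in the other direction.** -/
theorem levy_lower (hI : iIndepFun X P) (hm : ∀ i, Measurable (X i)) {L : ℕ}
    (hs : SymmTail X P L) {a ε : ℝ} (ha : 0 < a) (hε : 0 ≤ ε) :
    P {ω | a ≤ psum X L ω} + P {ω | a + 2 * ε < psum X L ω} ≤
      P {ω | ∃ k ≤ L, a ≤ psum X k ω} + P {ω | ∃ i < L, ε < X i ω} := by
  set U : Set ℝ := Set.Ici a
  set W : Set ℝ := Set.Iic (a + ε)
  have hsum := sum_measure_le hI hm (L := L) (U := U) (W := W) (V := fun _ => Set.Iio (-ε))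
    measurableSet_Ici measurableSet_Iic (fun _ => measurableSet_Iio)
    (E := {ω | ∃ k ≤ L, a ≤ psum X k ω} ∩ {ω | psum X L ω < a}) fun k hk ω hω => by
      have h1 : a ≤ psum X k ω := hω.1.1.1
      have h2 : psum X k ω ≤ a + ε := hω.1.2
      have h3 : psum X L ω - psum X k ω < -ε := hω.2
      exact ⟨⟨k, hk, h1⟩, show psum X L ω < a by linarith⟩
  have hcover : {ω | a + 2 * ε < psum X L ω} ⊆ {ω | ∃ i < L, ε < X i ω} ∪
      ⋃ k ∈ range (L + 1), firstAt X U k ∩ psum X k ⁻¹' W ∩
        (fun ω => psum X L ω - psum X k ω) ⁻¹' ((fun y => -y) ⁻¹' Set.Iio (-ε)) := by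
    intro ω hω
    have hL : a + 2 * ε < psum X L ω := hω
    by_cases hbig : ∃ i < L, ε < X i ω
    · exact Or.inl hbig
    refine Or.inr ?_
    obtain ⟨k, hk, hf⟩ := exists_firstAt (X := X) (U := U) (k := L)
      (show a ≤ psum X L ω by linarith)
    have hW' : psum X k ω ≤ a + ε := by
      rcases k with _ | i
      · have : a ≤ psum X 0 ω := hf.1
        simp [psum] at this
        linarith
      · have h1 : ¬a ≤ psum X i ω := hf.2 i (Nat.lt_succ_self i)
        have h2 : X i ω ≤ ε := le_of_not_gt fun h => hbig ⟨i, hk, h⟩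
        rw [psum, sum_range_succ]
        rw [psum] at h1
        linarith [not_le.1 h1]
    refine Set.mem_iUnion₂.2 ⟨k, mem_range.2 (Nat.lt_succ_of_le hk), ⟨hf, hW'⟩, ?_⟩
    show -(psum X L ω - psum X k ω) < -ε
    linarith
  have hupper : P {ω | a + 2 * ε < psum X L ω} ≤ P {ω | ∃ i < L, ε < X i ω} +
      P ({ω | ∃ k ≤ L, a ≤ psum X k ω} ∩ {ω | psum X L ω < a}) := by
    refine ((measure_mono hcover).trans (measure_union_le _ _)).trans ?_
    refine add_le_add_right ((measure_biUnion_finset_le _ _).trans (le_of_eq_of_le ?_ hsum)) _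
    refine sum_congr rfl fun k hk => ?_
    have hk' := Nat.lt_succ_iff.1 (mem_range.1 hk)
    rw [measure_firstAt_inter hI hm hk' measurableSet_Ici measurableSet_Iic
      (measurable_neg measurableSet_Iio), ← hs k hk' _ measurableSet_Iio]
  have hsplit := measure_inter_add_sdiff (μ := P) {ω | ∃ k ≤ L, a ≤ psum X k ω}
    (measurableSet_lt (measurable_psum hm L) measurable_const : MeasurableSet {ω | psum X L ω < a})
  have htop : P {ω | a ≤ psum X L ω} ≤
      P ({ω | ∃ k ≤ L, a ≤ psum X k ω} \ {ω | psum X L ω < a}) :=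
    measure_mono fun ω hω => ⟨⟨L, le_rfl, hω⟩, not_lt.2 (show a ≤ psum X L ω from hω)⟩
  calc P {ω | a ≤ psum X L ω} + P {ω | a + 2 * ε < psum X L ω}
      ≤ P ({ω | ∃ k ≤ L, a ≤ psum X k ω} \ {ω | psum X L ω < a}) +
        (P {ω | ∃ i < L, ε < X i ω} +
          P ({ω | ∃ k ≤ L, a ≤ psum X k ω} ∩ {ω | psum X L ω < a})) := add_le_add htop hupper
    _ = P {ω | ∃ k ≤ L, a ≤ psum X k ω} + P {ω | ∃ i < L, ε < X i ω} := by
        rw [← hsplit]
        abel

end FA.Donsker
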