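import Fermat.Agent.Donsker.Reflection

/-!
# Quadratic variation

The sum of the squares of the increments over `L` equal cells has mean `t` and variance `O (1 / L)`.
-/

set_option autoImplicit false

noncomputable section

namespace FA.Donsker

open MeasureTheory ProbabilityTheory Filter Topology Finset
open scoped NNReal ENNReal

variable {Ω' : Type*} {mΩ' : MeasurableSpace Ω'} {Q : Measure Ω'} {B : ℝ≥0 → Ω' → ℝ}

/-- **The quadratic variation of Brownian motion is `t`.** -/
theorem tendsto_quadVar [IsProbabilityMeasure Q] (hB : IsPreBrownianReal B Q) (t : ℝ≥0) :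
    Tendsto (fun L : ℕ => ∫ ω,
      (∑ k ∈ range L, (B (subGrid t L (k + 1)) ω - B (subGrid t L k) ω) ^ 2 - (t : ℝ)) ^ 2 ∂Q)
      atTop (𝓝 0) := by
  refine squeeze_zero' (Eventually.of_forall fun L => integral_nonneg fun ω => sq_nonneg _)
    ?_ (tendsto_const_div_atTop_nhds_zero_nat ((t : ℝ) ^ 2 * normalFourth))
  filter_upwards [eventually_ge_atTop 1] with L hL
  set D : ℕ → Ω' → ℝ := fun k ω => B (subGrid t L (k + 1)) ω - B (subGrid t L k) ω
  set Z : ℕ → Ω' → ℝ := fun k ω => D k ω ^ 2
  have hlaw : ∀ k, HasLaw (D k) (gaussianReal 0 (t / L)) Q := fun k => by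
    have h := hB.hasLaw_sub (subGrid t L (k + 1)) (subGrid t L k)
    have hv : nndist (subGrid t L (k + 1)).1 (subGrid t L k).1 = (t / L : ℝ≥0) := by
      refine NNReal.eq ?_
      simp only [coe_nndist, Real.dist_eq, NNReal.val_eq_coe, subGrid]
      push_cast
      rw [div_sub_div_same, ← mul_sub, add_sub_cancel_left, mul_one,
        abs_of_nonneg (by positivity)]
    rw [hv] at h
    exact h
  have hD4 : ∀ k, Integrable (fun ω => D k ω ^ 4) Q := fun k =>
    Integrable.comp_aemeasurable (g := fun y : ℝ => y ^ 4) (by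
      rw [(hlaw k).map_eq]
      exact integrable_pow_four _) (hlaw k).aemeasurable
  have hZ : ∀ k, MemLp (Z k) 2 Q := fun k => by
    refine (memLp_two_iff_integrable_sq ((hlaw k).aemeasurable.pow_const 2).aestronglyMeasurable).2
      ((hD4 k).congr (Eventually.of_forall fun ω => ?_))
    show D k ω ^ 4 = (D k ω ^ 2) ^ 2
    ring
  have hmean : ∀ k, ∫ ω, Z k ω ∂Q = (t : ℝ) / L := fun k => by
    rw [show (fun ω => Z k ω) = (fun y : ℝ => y ^ 2) ∘ D k from rfl,
      (hlaw k).integral_comp (by fun_prop)]
    have hv := variance_id_gaussianReal (μ := 0) (v := (t / L : ℝ≥0))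
    rw [variance_of_integral_eq_zero aemeasurable_id integral_id_gaussianReal] at hv
    simpa using hv
  have hS : MemLp (fun ω => ∑ k ∈ range L, Z k ω) 2 Q := memLp_finsetSum _ fun k _ => hZ k
  have hSmean : ∫ ω, ∑ k ∈ range L, Z k ω ∂Q = (t : ℝ) := by
    rw [integral_finsetSum _ fun k _ => (hZ k).integrable one_le_two,
      sum_congr rfl fun k _ => hmean k,
      sum_const, card_range, nsmul_eq_mul, mul_div_cancel₀ _ (Nat.cast_ne_zero.2 (by omega))]
  calc ∫ ω, (∑ k ∈ range L, Z k ω - (t : ℝ)) ^ 2 ∂Q
      = variance (fun ω => ∑ k ∈ range L, Z k ω) Q := by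
        rw [variance_eq_integral hS.aestronglyMeasurable.aemeasurable, hSmean]
    _ = ∑ k ∈ range L, variance (Z k) Q := by
        rw [show (fun ω => ∑ k ∈ range L, Z k ω) = ∑ k ∈ range L, Z k from
          funext fun ω => by simp]
        exact IndepFun.variance_sum (fun k _ => hZ k) fun i _ j _ hij =>
          ((hB.hasIndepIncrements.nat (monotone_subGrid t L)).indepFun hij).comp
            (φ := fun y : ℝ => y ^ 2) (ψ := fun y : ℝ => y ^ 2) (by fun_prop) (by fun_prop)
    _ ≤ ∑ k ∈ range L, ((t : ℝ) / L) ^ 2 * normalFourth := sum_le_sum fun k _ => by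
        refine (variance_le_expectation_sq (hZ k).aestronglyMeasurable).trans_eq ?_
        rw [show (Z k) ^ 2 = (fun y : ℝ => y ^ 4) ∘ D k from
          funext fun ω => show (D k ω ^ 2) ^ 2 = D k ω ^ 4 by ring,
          (hlaw k).integral_comp (by fun_prop), integral_pow_four]
        push_cast
        ring
    _ = (t : ℝ) ^ 2 * normalFourth / L := by
        rw [sum_const, card_range, nsmul_eq_mul]
        field_simp

end FA.Donsker
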