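import Fermat.Agent.Donsker.Main

/-!
# The reflection principle

Lévy's inequalities on finer and finer grids of `[0, t]` give the law of the maximum.
-/

set_option autoImplicit false

noncomputable section

namespace FA.Donsker

open MeasureTheory ProbabilityTheory Filter Topology Finset
open scoped NNReal ENNReal

variable {Ω' : Type*} {mΩ' : MeasurableSpace Ω'} {Q : Measure Ω'} {B : ℝ≥0 → Ω' → ℝ}

/-- The grid of `[0, t]` with `L` cells. -/
def subGrid (t : ℝ≥0) (L k : ℕ) : ℝ≥0 := t * k / L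

theorem monotone_subGrid (t : ℝ≥0) (L : ℕ) : Monotone (subGrid t L) := fun i j h => by
  unfold subGrid
  gcongr

theorem subGrid_le (t : ℝ≥0) {L k : ℕ} (h : k ≤ L) : subGrid t L k ≤ t := by
  rcases Nat.eq_zero_or_pos L with rfl | hL
  · simp [subGrid]
  · rw [subGrid, div_le_iff₀ (Nat.cast_pos.2 hL)]
    gcongr

theorem gaussianReal_neg_preimage (v : ℝ≥0) {V : Set ℝ} (hV : MeasurableSet V) :
    gaussianReal 0 v ((fun y => -y) ⁻¹' V) = gaussianReal 0 v V := by
  rw [← Measure.map_apply measurable_neg hV, gaussianReal_map_neg, neg_zero]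

/-- The discrete reflection inequalities for a grid. -/
theorem grid_bounds [IsProbabilityMeasure Q] (hB : IsPreBrownianReal B Q) (t : ℝ≥0) {L : ℕ}
    (hL : 0 < L) {a ε : ℝ} (ha : 0 < a) (hε : 0 < ε) :
    Q {ω | ∃ k ≤ L, a ≤ B (subGrid t L k) ω} ≤ 2 * gaussianReal 0 t (Set.Ici a) ∧
    gaussianReal 0 t (Set.Ici a) + gaussianReal 0 t (Set.Ioi (a + 2 * ε)) ≤
      Q {ω | ∃ k ≤ L, a ≤ B (subGrid t L k) ω} +
        ENNReal.ofReal ((t : ℝ) ^ 2 * normalFourth / ε ^ 4 / L) := by
  set τ := subGrid t L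
  have hτ := monotone_subGrid t L
  set D : ℕ → Ω' → ℝ := fun i ω => B (τ (i + 1)) ω - B (τ i) ω
  have hD : ∀ i, AEMeasurable (D i) Q := fun i => (hB.aemeasurable _).sub (hB.aemeasurable _)
  set X : ℕ → Ω' → ℝ := fun i => (hD i).mk (D i)
  have hX : ∀ i, D i =ᵐ[Q] X i := fun i => (hD i).ae_eq_mk
  have hm : ∀ i, Measurable (X i) := fun i => (hD i).measurable_mk
  have hI : iIndepFun X Q := (iIndepFun_congr hX).1 (hB.hasIndepIncrements.nat hτ)
  have hps : ∀ᵐ ω ∂Q, ∀ k, psum X k ω = B (τ k) ω := by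
    filter_upwards [ae_all_iff.2 hX, hB.eval_zero_ae_eq_zero] with ω hω h0 k
    rw [psum, sum_congr rfl fun i _ => (hω i).symm]
    simp only [D]
    rw [sum_range_sub fun i => B (τ i) ω, show τ 0 = 0 by simp [τ, subGrid], h0, sub_zero]
  have hτL : τ L = t := by
    simp only [τ, subGrid]
    rw [mul_div_cancel_right₀ _ (Nat.cast_ne_zero.2 hL.ne')]
  have hlast : ∀ S : Set ℝ, MeasurableSet S →
      Q {ω | psum X L ω ∈ S} = gaussianReal 0 t S := fun S hS => by
    rw [← (hB.hasLaw_eval t).map_eq, Measure.map_apply_of_aemeasurable (hB.aemeasurable t) hS]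
    refine measure_congr ?_
    filter_upwards [hps] with ω hω
    show (psum X L ω ∈ S) = (B t ω ∈ S)
    rw [hω L, hτL]
  have hs : SymmTail X Q L := fun k _ V hV => by
    have hlaw : ∀ S : Set ℝ, MeasurableSet S →
        Q ((fun ω => psum X L ω - psum X k ω) ⁻¹' S) =
          gaussianReal 0 (nndist (τ L).1 (τ k).1) S := fun S hS => by
      rw [← (hB.hasLaw_sub (τ L) (τ k)).map_eq,
        Measure.map_apply_of_aemeasurable (hB.hasLaw_sub (τ L) (τ k)).aemeasurable hS]
      refine measure_congr ?_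
      filter_upwards [hps] with ω hω
      show (psum X L ω - psum X k ω ∈ S) = ((B (τ L) - B (τ k)) ω ∈ S)
      rw [hω L, hω k, Pi.sub_apply]
    rw [hlaw V hV, hlaw _ (measurable_neg hV), gaussianReal_neg_preimage _ hV]
  have hset : Q {ω | ∃ k ≤ L, a ≤ psum X k ω} = Q {ω | ∃ k ≤ L, a ≤ B (τ k) ω} := by
    refine measure_congr ?_
    filter_upwards [hps] with ω hω
    show (∃ k ≤ L, a ≤ psum X k ω) = (∃ k ≤ L, a ≤ B (τ k) ω)
    simp only [hω]
  refine ⟨?_, ?_⟩
  · rw [← hset, ← hlast _ measurableSet_Ici]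
    exact levy_upper hI hm hs a
  · rw [← hset, ← hlast _ measurableSet_Ici, ← hlast _ measurableSet_Ioi]
    refine (levy_lower hI hm hs ha hε.le).trans (add_le_add_right ?_ _)
    have hstep : ∀ i, Q {ω | ε < X i ω} ≤
        ENNReal.ofReal ((t : ℝ) ^ 2 * normalFourth / ε ^ 4 / (L : ℝ) ^ 2) := fun i => by
      have hv : nndist (τ (i + 1)).1 (τ i).1 = (t / L : ℝ≥0) := by
        refine NNReal.eq ?_
        simp only [coe_nndist, Real.dist_eq, NNReal.val_eq_coe, τ, subGrid]
        push_cast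
        rw [div_sub_div_same, ← mul_sub, add_sub_cancel_left, mul_one,
          abs_of_nonneg (by positivity)]
      have hlaw := hB.hasLaw_sub (τ (i + 1)) (τ i)
      rw [hv] at hlaw
      have hle : Q {ω | ε < X i ω} ≤ gaussianReal 0 (t / L) {y | ε ^ 4 ≤ y ^ 4} := by
        have hms : MeasurableSet {y : ℝ | ε ^ 4 ≤ y ^ 4} :=
          measurableSet_le measurable_const (measurable_id.pow_const 4)
        rw [← hlaw.map_eq, Measure.map_apply_of_aemeasurable hlaw.aemeasurable hms]
        refine measure_mono_ae ?_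
        filter_upwards [hX i] with ω hω
        intro h
        show ε ^ 4 ≤ (B (τ (i + 1)) ω - B (τ i) ω) ^ 4
        refine pow_le_pow_left₀ hε.le ?_ 4
        have h' : ε < X i ω := h
        rw [← hω] at h'
        exact h'.le
      refine hle.trans ?_
      have hmark := mul_meas_ge_le_integral_of_nonneg
        (Eventually.of_forall fun y : ℝ => (show (0 : ℝ) ≤ y ^ 4 by positivity))
        (integrable_pow_four (t / L)) (ε ^ 4)
      rw [← ofReal_measureReal (measure_ne_top _ _)]
      refine ENNReal.ofReal_le_ofReal ?_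
      rw [integral_pow_four] at hmark
      push_cast at hmark
      rw [div_right_comm ((t : ℝ) ^ 2 * normalFourth), le_div_iff₀ (by positivity), mul_comm]
      rw [div_pow, div_mul_eq_mul_div] at hmark
      exact hmark
    have hU : {ω | ∃ i < L, ε < X i ω} = ⋃ i ∈ range L, {ω | ε < X i ω} := by
      ext ω
      simp
    rw [hU]
    refine ((measure_biUnion_finset_le _ _).trans
      (sum_le_card_nsmul _ _ _ fun i _ => hstep i)).trans (le_of_eq ?_)
    rw [card_range, nsmul_eq_mul, ← ENNReal.ofReal_natCast,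
      ← ENNReal.ofReal_mul (Nat.cast_nonneg L)]
    congr 1
    have : (L : ℝ) ≠ 0 := Nat.cast_ne_zero.2 hL.ne'
    field_simp

theorem gaussianReal_Ici_eq_Ioi {v : ℝ≥0} (hv : v ≠ 0) (a : ℝ) :
    gaussianReal 0 v (Set.Ici a) = gaussianReal 0 v (Set.Ioi a) := by
  have := nullSingletonClass_gaussianReal (μ := 0) hv
  exact measure_congr Ioi_ae_eq_Ici.symm

theorem iUnion_Ioi_add (a : ℝ) :
    ⋃ n : ℕ, Set.Ioi (a + 2 * (1 / ((n : ℝ) + 1))) = Set.Ioi a := by
  ext x
  simp only [Set.mem_iUnion, Set.mem_Ioi]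
  constructor
  · rintro ⟨n, hn⟩
    exact lt_trans (lt_add_of_pos_right a (by positivity)) hn
  · intro h
    obtain ⟨n, hn⟩ := exists_nat_one_div_lt (show 0 < (x - a) / 2 by linarith)
    exact ⟨n, by linarith⟩

/-- **The reflection principle.** -/
theorem reflection (hB : IsBrownianReal B Q) (t : ℝ≥0) {a : ℝ} (ha : 0 < a) :
    Q {ω | ∃ s ≤ t, a ≤ B s ω} = 2 * gaussianReal 0 t (Set.Ici a) := by
  have := hB.isGaussianProcess.isProbabilityMeasure
  have hP := hB.toIsPreBrownianReal
  rcases eq_or_ne t 0 with rfl | ht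
  · rw [gaussianReal_zero_var, Measure.dirac_apply' _ measurableSet_Ici,
      Set.indicator_of_notMem (by simpa using ha), mul_zero]
    refine measure_eq_zero_iff_ae_notMem.2 ?_
    filter_upwards [hP.eval_zero_ae_eq_zero] with ω hω
    rintro ⟨s, hs, hsa⟩
    rw [nonpos_iff_eq_zero] at hs
    rw [hs, hω] at hsa
    linarith
  set μ := gaussianReal 0 t
  set E := {ω | ∃ s ≤ t, a ≤ B s ω}
  refine le_antisymm ?_ ?_
  · have hstep : ∀ δ : ℝ, 0 < δ → δ < a → Q E ≤ 2 * μ (Set.Ici (a - δ)) := by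
      intro δ hδ hδa
      set S : ℕ → Set Ω' := fun L => {ω | ∃ k ≤ L, a - δ ≤ B (subGrid t L k) ω}
      have hsub : E ≤ᵐ[Q] ⋃ N : ℕ, ⋂ L ∈ Set.Ici N, S L := by
        filter_upwards [hB.cont] with ω hc hω
        obtain ⟨s, hs, hsa⟩ := hω
        set k : ℕ → ℕ := fun L => ⌈(s : ℝ) / t * L⌉₊
        have htr : (0 : ℝ) < t := NNReal.coe_pos.2 (pos_iff_ne_zero.2 ht)
        have hst : (s : ℝ) / t ≤ 1 := div_le_one_of_le₀ (NNReal.coe_le_coe.2 hs) htr.le
        have hk : ∀ L, k L ≤ L := fun L =>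
          Nat.ceil_le.2 (mul_le_of_le_one_left L.cast_nonneg hst)
        have hlim : Tendsto (fun L => subGrid t L (k L)) atTop (𝓝 s) := by
          rw [← NNReal.tendsto_coe]
          have h := ((tendsto_nat_ceil_mul_div_atTop (show 0 ≤ (s : ℝ) / t by positivity)).comp
            (tendsto_natCast_atTop_atTop (R := ℝ))).const_mul (t : ℝ)
          rw [mul_div_cancel₀ _ htr.ne'] at h
          refine h.congr fun L => ?_
          simp only [Function.comp_def, subGrid, k]
          push_cast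
          ring
        obtain ⟨N, hN⟩ := eventually_atTop.1
          (((hc.tendsto s).comp hlim).eventually_const_le (show a - δ < B s ω by linarith))
        exact Set.mem_iUnion.2 ⟨N, Set.mem_iInter₂.2 fun L hL => ⟨k L, hk L, hN L hL⟩⟩
      refine (measure_mono_ae hsub).trans ?_
      rw [Monotone.measure_iUnion (fun i j hij => Set.biInter_subset_biInter_left
        (Set.Ici_subset_Ici.2 hij))]
      refine iSup_le fun N => (measure_mono (Set.biInter_subset_of_mem
        (show N + 1 ∈ Set.Ici N from N.le_succ))).trans ?_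
      exact (grid_bounds hP t N.succ_pos (by linarith) one_pos).1
    obtain ⟨u, hu, hu0, hul⟩ : ∃ u : ℕ → ℝ, Antitone u ∧ (∀ n, 0 < u n ∧ u n < a) ∧
        Tendsto u atTop (𝓝 0) :=
      ⟨fun n => a * (1 / ((n : ℝ) + 2)), fun i j hij => by
        have : (i : ℝ) ≤ j := by exact_mod_cast hij
        dsimp only
        gcongr, fun n => ⟨by positivity, mul_lt_of_lt_one_right ha (by
          rw [div_lt_one (by positivity)]
          linarith [n.cast_nonneg (α := ℝ)])⟩, by
        simpa using ((tendsto_const_div_atTop_nhds_zero_nat (1 : ℝ)).comp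
          (tendsto_add_atTop_nat 2)).const_mul a⟩
    have hinter : ⋂ n, Set.Ici (a - u n) = Set.Ici a := by
      ext x
      simp only [Set.mem_iInter, Set.mem_Ici]
      refine ⟨fun h => ?_, fun h n => by linarith [(hu0 n).1]⟩
      refine le_of_tendsto (x := atTop) (f := fun n => a - u n) ?_ (Eventually.of_forall h)
      simpa using hul.const_sub a
    have hlim : Tendsto (fun n => μ (Set.Ici (a - u n))) atTop (𝓝 (μ (Set.Ici a))) := by
      rw [← hinter]
      exact tendsto_measure_iInter_atTop (fun n => measurableSet_Ici.nullMeasurableSet)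
        (fun i j hij => Set.Ici_subset_Ici.2 (by linarith [hu hij])) ⟨0, measure_ne_top _ _⟩
    exact ge_of_tendsto (ENNReal.Tendsto.const_mul hlim (Or.inr ENNReal.ofNat_ne_top))
      (Eventually.of_forall fun n => hstep _ (hu0 n).1 (hu0 n).2)
  · have hstep : ∀ ε : ℝ, 0 < ε → μ (Set.Ici a) + μ (Set.Ioi (a + 2 * ε)) ≤ Q E := by
      intro ε hε
      have hlim : Tendsto (fun L : ℕ => Q E +
          ENNReal.ofReal ((t : ℝ) ^ 2 * normalFourth / ε ^ 4 / L)) atTop (𝓝 (Q E)) := by
        simpa using (ENNReal.tendsto_ofReal (tendsto_const_div_atTop_nhds_zero_nat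
          ((t : ℝ) ^ 2 * normalFourth / ε ^ 4))).const_add (Q E)
      refine ge_of_tendsto hlim ?_
      filter_upwards [eventually_ge_atTop 1] with L hL
      refine (grid_bounds hP t hL ha hε).2.trans (add_le_add_left (measure_mono fun ω hω => ?_) _)
      obtain ⟨k, hk, hka⟩ := hω
      exact ⟨_, subGrid_le t hk, hka⟩
    rw [two_mul]
    nth_rewrite 2 [gaussianReal_Ici_eq_Ioi ht a]
    rw [← iUnion_Ioi_add a, Monotone.measure_iUnion (fun i j hij => Set.Ioi_subset_Ioi (by
      have : (i : ℝ) ≤ j := by exact_mod_cast hij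
      gcongr)), ENNReal.add_iSup]
    exact iSup_le fun n => hstep _ (by positivity)

end FA.Donsker
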