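import Fermat.Agent.Donsker.Weak
import Fermat.Agent.Donsker.Reflection
import Fermat.Agent.Brownian.Version

/-!
# The maximum of a walk

The maximum is a continuous functional of the path, so the invariance principle and the reflection
principle give the limit law of `max (S k) / √n`, the theorem of Erdős and Kac.
-/

set_option autoImplicit false

noncomputable section

namespace FA.Donsker

open MeasureTheory ProbabilityTheory Filter Topology
open scoped unitInterval NNReal ENNReal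

/-- The maximum of a path. -/
def topValue (f : C(I, ℝ)) : ℝ := sSup (Set.range f)

theorem bddAbove_range_path (f : C(I, ℝ)) : BddAbove (Set.range f) :=
  (isCompact_range f.continuous).bddAbove

theorem le_topValue (f : C(I, ℝ)) (t : I) : f t ≤ topValue f :=
  le_csSup (bddAbove_range_path f) (Set.mem_range_self t)

theorem topValue_le {f : C(I, ℝ)} {a : ℝ} (h : ∀ t, f t ≤ a) : topValue f ≤ a :=
  csSup_le (Set.range_nonempty f) (by rintro _ ⟨t, rfl⟩; exact h t)

theorem exists_eq_topValue (f : C(I, ℝ)) : ∃ t, f t = topValue f :=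
  Set.mem_range.1 ((isCompact_range f.continuous).sSup_mem (Set.range_nonempty f))

theorem continuous_topValue : Continuous topValue :=
  (LipschitzWith.of_le_add fun f g => topValue_le fun t => by
    have h := ContinuousMap.dist_apply_le_dist (f := f) (g := g) t
    rw [Real.dist_eq] at h
    linarith [le_abs_self (f t - g t), le_topValue g t]).continuous

variable {Ω Ω' : Type*} {mΩ : MeasurableSpace Ω} {mΩ' : MeasurableSpace Ω'} {P : Measure Ω}
  {Q : Measure Ω'} {X : ℕ → Ω → ℝ} {B : ℝ≥0 → Ω' → ℝ}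

theorem topValue_walkPath_le_iff {n : ℕ} (hn : 0 < n) {a : ℝ} (ω : Ω) :
    topValue (walkPath X n ω) ≤ a ↔ ∀ k ≤ n, psum X k ω ≤ a * √n := by
  have hs : 0 < √(n : ℝ) := Real.sqrt_pos.2 (Nat.cast_pos.2 hn)
  have h0 : psum X 0 ω / √n = 0 := by simp [psum]
  constructor
  · intro h k hk
    have hv : (k : ℝ) / n ∈ I :=
      ⟨by positivity, div_le_one_of_le₀ (by exact_mod_cast hk) (Nat.cast_nonneg n)⟩
    have := (le_topValue (walkPath X n ω) ⟨_, hv⟩).trans h
    rw [walkPath, polyLine_vertex hk hn (fun k => psum X k ω / √n)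
      (mul_div_cancel₀ _ (Nat.cast_ne_zero.2 hn.ne')), h0, sub_zero, div_le_iff₀ hs] at this
    exact this
  · intro h
    refine topValue_le fun t => ?_
    obtain ⟨j, hj, θ, hθ, e⟩ := exists_cell hn t
    have h1 : psum X j ω / √n ≤ a := (div_le_iff₀ hs).2 (h j hj.le)
    have h2 : psum X (j + 1) ω / √n ≤ a := (div_le_iff₀ hs).2 (h (j + 1) hj)
    rw [walkPath, polyLine_apply hj hθ e, h0, sub_zero]
    nlinarith [mul_le_mul_of_nonneg_left h1 (sub_nonneg.2 hθ.2),
      mul_le_mul_of_nonneg_left h2 hθ.1]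

variable [MeasurableSpace C(I, ℝ)] [BorelSpace C(I, ℝ)]

omit [MeasurableSpace C(I, ℝ)] [BorelSpace C(I, ℝ)] in
/-- The law of the maximum of the Brownian path. -/
theorem measure_topValue_gt (hB : IsBrownianReal B Q) {W : Ω' → C(I, ℝ)}
    (hW : ∀ᵐ ω ∂Q, ∀ t : I, W ω t = B ⟨t, t.2.1⟩ ω) {a : ℝ} (ha : 0 < a) :
    Q {ω | a < topValue (W ω)} = 2 * gaussianReal 0 1 (Set.Ioi a) ∧
      Q {ω | a ≤ topValue (W ω)} = 2 * gaussianReal 0 1 (Set.Ioi a) := by
  have hge : ∀ b : ℝ, 0 < b →
      Q {ω | b ≤ topValue (W ω)} = 2 * gaussianReal 0 1 (Set.Ici b) := fun b hb => by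
    rw [← reflection hB 1 hb]
    refine measure_congr ?_
    filter_upwards [hW] with ω hω
    show (b ≤ topValue (W ω)) = (∃ s ≤ (1 : ℝ≥0), b ≤ B s ω)
    refine propext ⟨fun h => ?_, fun ⟨s, hs, hsb⟩ => ?_⟩
    · obtain ⟨t, ht⟩ := exists_eq_topValue (W ω)
      exact ⟨⟨t, t.2.1⟩, show (t : ℝ) ≤ ((1 : ℝ≥0) : ℝ) from t.2.2, by rw [← hω t, ht]; exact h⟩
    · refine le_trans ?_ (le_topValue _ (⟨s, s.2, by exact_mod_cast hs⟩ : I))
      rw [hω]
      exact hsb
  refine ⟨?_, by rw [hge a ha, gaussianReal_Ici_eq_Ioi one_ne_zero]⟩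
  have hu : {ω | a < topValue (W ω)} =
      ⋃ n : ℕ, {ω | a + 2 * (1 / ((n : ℝ) + 1)) ≤ topValue (W ω)} := by
    ext ω
    simp only [Set.mem_ofPred_eq, Set.mem_iUnion]
    constructor
    · intro h
      obtain ⟨n, hn⟩ := exists_nat_one_div_lt (show 0 < (topValue (W ω) - a) / 2 by linarith)
      exact ⟨n, by linarith⟩
    · rintro ⟨n, hn⟩
      exact lt_of_lt_of_le (lt_add_of_pos_right a (by positivity)) hn
  have hmono : ∀ i j : ℕ, i ≤ j → a + 2 * (1 / ((j : ℝ) + 1)) ≤ a + 2 * (1 / ((i : ℝ) + 1)) :=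
    fun i j hij => by
      have : (i : ℝ) ≤ j := by exact_mod_cast hij
      gcongr
  have hmono' : Monotone fun n : ℕ => {ω | a + 2 * (1 / ((n : ℝ) + 1)) ≤ topValue (W ω)} :=
    fun i j hij ω (h : a + 2 * (1 / ((i : ℝ) + 1)) ≤ topValue (W ω)) =>
      le_trans (hmono i j hij) h
  rw [hu, hmono'.measure_iUnion, ← iUnion_Ioi_add a,
    Monotone.measure_iUnion (fun i j hij => Set.Ioi_subset_Ioi (hmono i j hij)), ENNReal.mul_iSup]
  refine iSup_congr fun n => ?_
  rw [hge _ (by positivity), gaussianReal_Ici_eq_Ioi one_ne_zero]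

omit [MeasurableSpace C(I, ℝ)] [BorelSpace C(I, ℝ)] in
theorem gaussianReal_Icc_eq {a : ℝ} (ha : 0 < a) :
    gaussianReal 0 1 (Set.Icc (-a) a) = 1 - 2 * gaussianReal 0 1 (Set.Ioi a) := by
  have hneg : gaussianReal 0 1 (Set.Iio (-a)) = gaussianReal 0 1 (Set.Ioi a) := by
    rw [← gaussianReal_neg_preimage 1 measurableSet_Ioi]
    congr 1
    ext x
    simp only [Set.mem_preimage, Set.mem_Ioi, Set.mem_Iio]
    constructor <;> intro h <;> linarith
  have hc : (Set.Icc (-a) a)ᶜ = Set.Iio (-a) ∪ Set.Ioi a := by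
    ext x
    simp [Set.mem_Icc, imp_iff_not_or]
  have h := prob_compl_eq_one_sub (μ := gaussianReal 0 1)
    (measurableSet_Iio.union measurableSet_Ioi : MeasurableSet (Set.Iio (-a) ∪ Set.Ioi a))
  rw [← hc, compl_compl] at h
  rw [h, hc, measure_union (Set.disjoint_left.2 fun x h1 h2 => by
    linarith [Set.mem_Iio.1 h1, Set.mem_Ioi.1 h2]) measurableSet_Ioi, hneg, two_mul]

/-- The maximum of the walk converges, given a Brownian motion. -/
theorem tendsto_max_of_brownian [IsProbabilityMeasure P] [IsProbabilityMeasure Q]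
    (hI : iIndepFun X P) (hid : ∀ i, IdentDistrib (X i) (X 0) P P) (h0 : ∫ ω, X 0 ω ∂P = 0)
    (h1 : ∫ ω, X 0 ω ^ 2 ∂P = 1) (hB : IsBrownianReal B Q) {a : ℝ} (ha : 0 < a) :
    Tendsto (fun n => P {ω | ∀ k ≤ n, psum X k ω ≤ a * √n}) atTop
      (𝓝 (gaussianReal 0 1 (Set.Icc (-a) a))) := by
  have hW := bmPath_apply_ae hB
  have hd := (donsker_ae hI hid h0 h1 hB.toIsPreBrownianReal hW).continuous_comp continuous_topValue
  have hgt := measure_topValue_gt hB hW ha
  have hWm : AEMeasurable (fun ω => topValue (bmPath B ω)) Q :=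
    continuous_topValue.measurable.comp_aemeasurable (aemeasurable_path hB.toIsPreBrownianReal hW)
  have hnull : ∀ {S : Set ℝ}, MeasurableSet S → Q.map (fun ω => topValue (bmPath B ω)) S =
      Q {ω | topValue (bmPath B ω) ∈ S} := fun hS =>
    Measure.map_apply_of_aemeasurable hWm hS
  have hfront : Q.map (fun ω => topValue (bmPath B ω)) {a} = 0 := by
    have hsub : {ω | a < topValue (bmPath B ω)} ⊆ {ω | a ≤ topValue (bmPath B ω)} :=
      fun ω (h : a < topValue (bmPath B ω)) => h.le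
    rw [← Set.Ici_sdiff_Ioi_same, measure_sdiff Set.Ioi_subset_Ici_self
      measurableSet_Ioi.nullMeasurableSet (measure_ne_top _ _), hnull measurableSet_Ici,
      hnull measurableSet_Ioi]
    show Q {ω | a ≤ topValue (bmPath B ω)} - Q {ω | a < topValue (bmPath B ω)} = 0
    rw [hgt.1, hgt.2, tsub_self]
  have hlim := ProbabilityMeasure.tendsto_measure_of_null_frontier_of_tendsto' hd.tendsto
    (E := Set.Iic a) (by rw [frontier_Iic]; exact hfront)
  simp only [ProbabilityMeasure.coe_mk] at hlim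
  have hval : Q.map (topValue ∘ bmPath B) (Set.Iic a) = gaussianReal 0 1 (Set.Icc (-a) a) := by
    have := Measure.isProbabilityMeasure_map (μ := Q) hWm
    rw [gaussianReal_Icc_eq ha, show topValue ∘ bmPath B = fun ω => topValue (bmPath B ω) from rfl,
      ← Set.compl_Ioi, prob_compl_eq_one_sub measurableSet_Ioi, hnull measurableSet_Ioi]
    congr 1
    exact hgt.1
  rw [← hval]
  refine hlim.congr' ?_
  filter_upwards [eventually_ge_atTop 1] with n hn
  rw [Measure.map_apply_of_aemeasurable (hd.forall_aemeasurable n) measurableSet_Iic]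
  congr 1
  ext ω
  exact topValue_walkPath_le_iff hn ω

omit [MeasurableSpace C(I, ℝ)] [BorelSpace C(I, ℝ)] in
/-- **The theorem of Erdős and Kac on the maximum of partial sums.** -/
theorem tendsto_max [IsProbabilityMeasure P] (hI : iIndepFun X P)
    (hid : ∀ i, IdentDistrib (X i) (X 0) P P) (h0 : ∫ ω, X 0 ω ∂P = 0)
    (h1 : ∫ ω, X 0 ω ^ 2 ∂P = 1) {a : ℝ} (ha : 0 < a) :
    Tendsto (fun n => P {ω | ∀ k ≤ n, psum X k ω ≤ a * √n}) atTop
      (𝓝 (gaussianReal 0 1 (Set.Icc (-a) a))) := by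
  borelize C(I, ℝ)
  obtain ⟨B, hB, -⟩ := FA.Brownian.exists_version
  exact tendsto_max_of_brownian hI hid h0 h1 hB ha

end FA.Donsker
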