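import Fermat.Agent.Donsker.Main
import Mathlib.MeasureTheory.Measure.Portmanteau
import Mathlib.Topology.ContinuousMap.SecondCountableSpace

/-!
# Weak convergence on the space of paths

The proof of the invariance principle from the finite dimensional laws and the closeness of the
walk to its coarse polygons, for any Borel structure on the space of paths.
-/

set_option autoImplicit false

noncomputable section

namespace FA.Donsker

open MeasureTheory ProbabilityTheory Filter Topology
open scoped unitInterval NNReal ENNReal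
open FA.Brownian (gridTime coe_gridTime)

variable {Ω Ω' : Type*} {mΩ : MeasurableSpace Ω} {mΩ' : MeasurableSpace Ω'} {P : Measure Ω}
  {Q : Measure Ω'} {X : ℕ → Ω → ℝ} {B : ℝ≥0 → Ω' → ℝ}

/-- The restriction to `[0, 1]` of a path, or `0` if that is not continuous. -/
def bmPath (B : ℝ≥0 → Ω' → ℝ) (ω : Ω') : C(I, ℝ) :=
  open Classical in
  if h : Continuous fun t : I => B ⟨t, t.2.1⟩ ω then ⟨_, h⟩ else 0

theorem bmPath_apply_ae (hB : IsBrownianReal B Q) :
    ∀ᵐ ω ∂Q, ∀ t : I, bmPath B ω t = B ⟨t, t.2.1⟩ ω := by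
  filter_upwards [hB.cont] with ω hω t
  have h : Continuous fun t : I => B ⟨t, t.2.1⟩ ω :=
    hω.comp (continuous_subtype_val.subtype_mk fun t => t.2.1)
  rw [bmPath, dif_pos h]
  rfl

variable [MeasurableSpace C(I, ℝ)] [BorelSpace C(I, ℝ)]

omit [MeasurableSpace C(I, ℝ)] [BorelSpace C(I, ℝ)] in
/-- The inscribed polygons tend to the path. -/
theorem ae_tendsto_polyFin_bmInc (hB : IsPreBrownianReal B Q) {W : Ω' → C(I, ℝ)}
    (hW : ∀ᵐ ω ∂Q, ∀ t : I, W ω t = B ⟨t, t.2.1⟩ ω) :
    ∀ᵐ ω ∂Q, Tendsto (fun m => polyFin m (bmInc B m ω)) atTop (𝓝 (W ω)) := by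
  filter_upwards [hW, hB.eval_zero_ae_eq_zero] with ω hω h0
  have hz : W ω 0 = 0 := by
    rw [hω 0]
    exact h0
  refine (tendsto_polyLine hz (fun m j => B (gridTime m j) ω) fun m j t hm hj ht => ?_).congr
    fun m => rfl
  rw [hω t]
  refine congrArg (fun s => B s ω) (NNReal.eq ?_)
  rw [coe_gridTime, div_eq_iff (Nat.cast_ne_zero.2 hm.ne'), ← ht, mul_comm]
  rfl

theorem aemeasurable_path (hB : IsPreBrownianReal B Q) {W : Ω' → C(I, ℝ)}
    (hW : ∀ᵐ ω ∂Q, ∀ t : I, W ω t = B ⟨t, t.2.1⟩ ω) : AEMeasurable W Q :=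
  aemeasurable_of_tendsto_metrizable_ae atTop
    (fun m => (continuous_polyFin m).measurable.comp_aemeasurable (hasLaw_bmInc hB m).aemeasurable)
    (ae_tendsto_polyFin_bmInc hB hW)

theorem measurable_walkPath (hm : ∀ i, Measurable (X i)) (n : ℕ) : Measurable (walkPath X n) :=
  (continuous_polyLine n).measurable.comp
    (measurable_pi_lambda _ fun k => (measurable_psum hm k).div_const _)

/-- **Donsker's invariance principle**, for measurable steps. -/
theorem WalkStep.donsker [IsProbabilityMeasure P] [IsProbabilityMeasure Q] (h : WalkStep X P)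
    (hB : IsPreBrownianReal B Q) {W : Ω' → C(I, ℝ)}
    (hW : ∀ᵐ ω ∂Q, ∀ t : I, W ω t = B ⟨t, t.2.1⟩ ω) :
    TendstoInDistribution (fun n => walkPath X n) atTop W (fun _ => P) Q := by
  have hWm := aemeasurable_path hB hW
  refine ⟨fun n => (measurable_walkPath h.meas n).aemeasurable, hWm, ?_⟩
  rw [tendsto_iff_forall_lipschitz_integral_tendsto]
  rintro F ⟨C, hC⟩ ⟨K, hK⟩
  simp only [ProbabilityMeasure.coe_mk]
  have hFc := hK.continuous
  rw [integral_map hWm hFc.aestronglyMeasurable]
  simp only [fun n => integral_map (measurable_walkPath h.meas n).aemeasurable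
    (hFc.aestronglyMeasurable (μ := P.map (walkPath X n)))]
  have hC0 : 0 ≤ C := dist_nonneg.trans (hC 0 0)
  have hint : ∀ {α : Type _} {_ : MeasurableSpace α} (μ : Measure α) [IsFiniteMeasure μ]
      (f : α → C(I, ℝ)), AEMeasurable f μ → Integrable (fun a => F (f a)) μ :=
    fun {α} _ μ _ f hf => Integrable.of_bound (hFc.measurable.comp_aemeasurable hf
      ).aestronglyMeasurable (|F 0| + C) (Eventually.of_forall fun a => by
        have := hC (f a) 0
        rw [Real.dist_eq] at this
        rw [Real.norm_eq_abs]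
        linarith [abs_sub_abs_le_abs_sub (F (f a)) (F 0)])
  have hcoarse : ∀ m, 0 < m → Tendsto (fun n => ∫ ω, F (polyFin m (blockVec X n m ω)) ∂P) atTop
      (𝓝 (∫ ω, F (polyFin m (bmInc B m ω)) ∂Q)) := fun m hm => by
    have h1 := ProbabilityMeasure.tendsto_iff_forall_integral_tendsto.1
      (h.tendsto_blockVec hm).tendsto (BoundedContinuousFunction.ofNormedAddCommGroup
        (fun v => F (polyFin m v)) (hFc.comp (continuous_polyFin m)) (|F 0| + C) fun v => by
          have := hC (polyFin m v) 0
          rw [Real.dist_eq] at this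
          rw [Real.norm_eq_abs]
          linarith [abs_sub_abs_le_abs_sub (F (polyFin m v)) (F 0)])
    have hg : AEStronglyMeasurable (fun v => F (polyFin m v))
        (Measure.pi fun _ : Fin m => gaussianReal 0 (1 / m)) :=
      (hFc.comp (continuous_polyFin m)).aestronglyMeasurable
    simp only [ProbabilityMeasure.coe_mk, BoundedContinuousFunction.coe_ofNormedAddCommGroup,
      Measure.map_id] at h1
    have e : ∀ n, ∫ v, F (polyFin m v) ∂P.map (blockVec X n m) =
        ∫ ω, F (polyFin m (blockVec X n m ω)) ∂P := fun n =>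
      integral_map (measurable_blockVec h.meas n m).aemeasurable
        (hFc.comp (continuous_polyFin m)).aestronglyMeasurable
    have e' : ∫ v, F (polyFin m v) ∂Q.map (bmInc B m) = ∫ ω, F (polyFin m (bmInc B m ω)) ∂Q :=
      integral_map (hasLaw_bmInc hB m).aemeasurable
        (hFc.comp (continuous_polyFin m)).aestronglyMeasurable
    rw [← (hasLaw_bmInc hB m).map_eq, e', funext e] at h1
    exact h1
  have hfine : Tendsto (fun m => ∫ ω, F (polyFin m (bmInc B m ω)) ∂Q) atTop
      (𝓝 (∫ ω, F (W ω) ∂Q)) := by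
    refine tendsto_integral_of_dominated_convergence (fun _ => |F 0| + C)
      (fun m => (hFc.measurable.comp_aemeasurable
        ((continuous_polyFin m).measurable.comp_aemeasurable
        (hasLaw_bmInc hB m).aemeasurable)).aestronglyMeasurable) (integrable_const _)
      (fun m => Eventually.of_forall fun ω => ?_) ?_
    · have := hC (polyFin m (bmInc B m ω)) 0
      rw [Real.dist_eq] at this
      rw [Real.norm_eq_abs]
      linarith [abs_sub_abs_le_abs_sub (F (polyFin m (bmInc B m ω))) (F 0)]
    · filter_upwards [ae_tendsto_polyFin_bmInc hB hW] with ω hω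
      exact (hFc.tendsto _).comp hω
  refine Metric.tendsto_atTop.2 fun η hη => ?_
  set ε := η / (4 * ((K : ℝ) + 1))
  have hε : 0 < ε := by positivity
  have hKε : (K : ℝ) * ε ≤ η / 4 := by
    have : ((K : ℝ) + 1) * ε = η / 4 := by
      simp only [ε]
      field_simp
    nlinarith
  have hsmall : Tendsto (fun m : ℕ => C * (2 * (normalFourth / (ε / 6) ^ 4 + 1) / m)) atTop
      (𝓝 0) := by
    simpa using
      (tendsto_const_div_atTop_nhds_zero_nat (2 * (normalFourth / (ε / 6) ^ 4 + 1))).const_mul C
  obtain ⟨M, hM⟩ := eventually_atTop.1 ((hsmall.eventually_lt_const (by linarith : 0 < η / 4)).and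
    (Metric.tendsto_nhds.1 hfine (η / 4) (by linarith)))
  obtain ⟨m, hmM, hm, hmε⟩ : ∃ m : ℕ, M ≤ m ∧ 0 < m ∧ 144 / ε ^ 2 ≤ (m : ℝ) := by
    obtain ⟨k, hk⟩ := exists_nat_ge (144 / ε ^ 2)
    exact ⟨max M (max 1 k), le_max_left _ _, by omega,
      hk.trans (by exact_mod_cast (le_max_right 1 k).trans (le_max_right M _))⟩
  obtain ⟨hb, hf⟩ := hM m hmM
  obtain ⟨N, hN⟩ := eventually_atTop.1 ((h.eventually_close hε hm hmε).and
    (Metric.tendsto_nhds.1 (hcoarse m hm) (η / 4) (by linarith)))
  refine ⟨N, fun n hn => ?_⟩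
  obtain ⟨hclose, hmid⟩ := hN n hn
  set S := {ω | ε < dist (walkPath X n ω) (polyFin m (blockVec X n m ω))}
  have hS : MeasurableSet S := by
    exact measurableSet_lt measurable_const ((measurable_walkPath h.meas n).dist
      ((continuous_polyFin m).measurable.comp (measurable_blockVec h.meas n m)))
  have hA := hint P (walkPath X n) (measurable_walkPath h.meas n).aemeasurable
  have hB' := hint P (fun ω => polyFin m (blockVec X n m ω))
    ((continuous_polyFin m).measurable.comp (measurable_blockVec h.meas n m)).aemeasurable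
  have hfirst : |∫ ω, F (walkPath X n ω) ∂P - ∫ ω, F (polyFin m (blockVec X n m ω)) ∂P| <
      η / 2 := by
    rw [← integral_sub hA hB']
    have hbound : ∀ ω, |F (walkPath X n ω) - F (polyFin m (blockVec X n m ω))| ≤
        K * ε + C * S.indicator (fun _ => (1 : ℝ)) ω := fun ω => by
      by_cases hω : ω ∈ S
      · rw [Set.indicator_of_mem hω, mul_one, ← Real.dist_eq]
        exact (hC _ _).trans (le_add_of_nonneg_left (by positivity))
      · rw [Set.indicator_of_notMem hω, mul_zero, add_zero, ← Real.dist_eq]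
        exact (hK.dist_le_mul _ _).trans (mul_le_mul_of_nonneg_left (not_lt.1 hω) K.coe_nonneg)
    have hSi : Integrable (S.indicator fun _ => (1 : ℝ)) P := (integrable_const _).indicator hS
    refine (abs_integral_le_integral_abs.trans (integral_mono (hA.sub hB').abs
      ((integrable_const _).add (hSi.const_mul C)) hbound)).trans_lt ?_
    simp only [Pi.add_apply]
    rw [integral_add (integrable_const _) (hSi.const_mul C), integral_const, integral_const_mul,
      show S.indicator (fun _ => (1 : ℝ)) = S.indicator 1 from rfl, integral_indicator_one hS]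
    have hp : C * P.real S ≤ C * (2 * (normalFourth / (ε / 6) ^ 4 + 1) / m) := by
      refine mul_le_mul_of_nonneg_left (ENNReal.toReal_le_of_le_ofReal ?_ hclose) hC0
      have : 0 ≤ normalFourth := integral_nonneg fun x => by positivity
      positivity
    simp only [probReal_univ, one_smul]
    linarith
  rw [Real.dist_eq] at hf hmid ⊢
  linarith [abs_sub_le (∫ ω, F (walkPath X n ω) ∂P) (∫ ω, F (polyFin m (blockVec X n m ω)) ∂P)
    (∫ ω, F (W ω) ∂Q), abs_sub_le (∫ ω, F (polyFin m (blockVec X n m ω)) ∂P)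
    (∫ ω, F (polyFin m (bmInc B m ω)) ∂Q) (∫ ω, F (W ω) ∂Q)]

/-- **Donsker's invariance principle.** -/
theorem donsker_ae [IsProbabilityMeasure P] [IsProbabilityMeasure Q] (hI : iIndepFun X P)
    (hid : ∀ i, IdentDistrib (X i) (X 0) P P) (h0 : ∫ ω, X 0 ω ∂P = 0)
    (h1 : ∫ ω, X 0 ω ^ 2 ∂P = 1) (hB : IsPreBrownianReal B Q) {W : Ω' → C(I, ℝ)}
    (hW : ∀ᵐ ω ∂Q, ∀ t : I, W ω t = B ⟨t, t.2.1⟩ ω) :
    TendstoInDistribution (fun n => walkPath X n) atTop W (fun _ => P) Q := by
  have hae : ∀ i, AEMeasurable (X i) P := fun i => (hid i).aemeasurable_fst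
  set Y : ℕ → Ω → ℝ := fun i => (hae i).mk (X i)
  have heq : ∀ i, X i =ᵐ[P] Y i := fun i => (hae i).ae_eq_mk
  have hstep : WalkStep Y P :=
    { meas := fun i => (hae i).measurable_mk
      indep := (iIndepFun_congr heq).1 hI
      ident := fun i => ((IdentDistrib.of_ae_eq (hae i) (heq i)).symm.trans (hid i)).trans
        (IdentDistrib.of_ae_eq (hae 0) (heq 0))
      mean := by rw [← integral_congr_ae (heq 0), h0]
      second := by
        rw [← h1]
        exact integral_congr_ae ((heq 0).symm.mono fun ω hω => by simp only [hω]) }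
  refine (hstep.donsker hB hW).congr (fun n => ?_) (EventuallyEq.refl _ _)
  filter_upwards [ae_all_iff.2 heq] with ω hω
  exact congrArg (polyLine n) (funext fun k => by simp only [psum, hω])

end FA.Donsker
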